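import Mathlib

/-!
# Degrees and linearly disjoint extensions of the base

`relfinrank_base_change`: if `s : F →ₐ[K] Ω` and `A₀ ⊆ Ω` are linearly disjoint (the map
`A₀ ⊗ F → Ω` is injective) and `F / F₀` is finite, then the degree of `A₀(s F)` over `A₀(s F₀)`
equals `[F : F₀]`. The images of a basis of `F` over `F₀` span by algebraicity and are independent
after clearing denominators.
-/

set_option autoImplicit false
set_option linter.style.haveILetI false

universe u

noncomputable section

open IntermediateField TensorProduct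

namespace FLTAgent.AbVarTors

variable {K F Ω : Type u} [Field K] [Field F] [Algebra K F] [Field Ω] [Algebra K Ω]

set_option maxHeartbeats 800000 in
/-- The degree of a finite extension is unchanged by a linearly disjoint extension of the base. -/
theorem relfinrank_base_change (s : F →ₐ[K] Ω) (A₀ : IntermediateField K Ω)
    (hinj : Function.Injective (Algebra.TensorProduct.lift (Algebra.ofId A₀ Ω) s
      fun _ _ => Commute.all _ _))
    (F₀ : IntermediateField K F) [FiniteDimensional F₀ F] :
    relfinrank (adjoin K ((A₀ : Set Ω) ∪ s '' (F₀ : Set F)))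
      (adjoin K ((A₀ : Set Ω) ∪ Set.range s)) = Module.finrank F₀ F := by
  classical
  set X : IntermediateField K Ω := adjoin K ((A₀ : Set Ω) ∪ s '' (F₀ : Set F)) with hX
  let b := Module.finBasis F₀ F
  set v : Fin (Module.finrank F₀ F) → Ω := fun j => s (b j) with hv
  have hF₀X : ∀ c : F₀, s (c : F) ∈ X := fun c => subset_adjoin K _ (Or.inr ⟨c, c.2, rfl⟩)
  -- linear independence
  let ψ : A₀ ⊗[K] F →ₐ[K] Ω :=
    Algebra.TensorProduct.lift A₀.val s fun _ _ => Commute.all _ _
  have hψ : Function.Injective ψ := by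
    have e : ∀ z, ψ z =
        Algebra.TensorProduct.lift (Algebra.ofId A₀ Ω) s (fun _ _ => Commute.all _ _) z := by
      intro z
      induction z using TensorProduct.induction_on with
      | zero => rw [map_zero, map_zero]
      | tmul a f => simp [ψ]
      | add p q hp hq => rw [map_add, map_add, hp, hq]
    exact fun p q h => hinj ((e p).symm.trans (h.trans (e q)))
  let ψ₀ : A₀ ⊗[K] F₀ →ₐ[K] Ω :=
    Algebra.TensorProduct.lift A₀.val (s.comp F₀.val) fun _ _ => Commute.all _ _
  let e : (Fin (Module.finrank F₀ F) → F₀) ≃ₗ[K] F := b.equivFun.symm.restrictScalars K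
  let Φ : (Fin (Module.finrank F₀ F) → A₀ ⊗[K] F₀) ≃ₗ[K] A₀ ⊗[K] F :=
    ((TensorProduct.piRight K K (A₀ : Type u) fun _ : Fin (Module.finrank F₀ F) => (F₀ : Type u)).symm).trans
      (TensorProduct.congr (LinearEquiv.refl K (A₀ : Type u)) e)
  have hΦ : ∀ P, ψ (Φ P) = ∑ j, ψ₀ (P j) * v j := by
    intro P
    let R : (Fin (Module.finrank F₀ F) → A₀ ⊗[K] F₀) →ₗ[K] Ω :=
      ∑ j, (LinearMap.mulRight K (v j)).comp (ψ₀.toLinearMap.comp (LinearMap.proj j))
    have hR : ψ.toLinearMap.comp Φ.toLinearMap = R := by
      refine LinearMap.pi_ext' fun j => TensorProduct.ext' fun a f => ?_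
      simp only [LinearMap.comp_apply, LinearMap.coe_single, LinearEquiv.coe_coe, R,
        LinearMap.coe_sum, Finset.sum_apply, LinearMap.proj_apply, AlgHom.toLinearMap_apply,
        LinearMap.mulRight_apply]
      rw [Finset.sum_eq_single j (fun i _ hij => by rw [Pi.single_eq_of_ne hij, map_zero, zero_mul])
        (fun h => absurd (Finset.mem_univ j) h), Pi.single_eq_same]
      have h1 : Φ (Pi.single j (a ⊗ₜ[K] f)) = a ⊗ₜ[K] ((f : F) * b j) := by
        simp only [Φ, LinearEquiv.trans_apply, TensorProduct.piRight_symm_single,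
          TensorProduct.congr_tmul, LinearEquiv.refl_apply]
        congr 1
        show b.equivFun.symm (Pi.single j f) = _
        rw [Module.Basis.equivFun_symm_apply,
          Finset.sum_eq_single j (fun i _ hij => by rw [Pi.single_eq_of_ne hij, zero_smul])
            (fun h => absurd (Finset.mem_univ j) h), Pi.single_eq_same]
        rfl
      rw [h1]
      simp [ψ, ψ₀, hv, mul_assoc]
    have h := LinearMap.congr_fun hR P
    simpa [R] using h
  have hrange : Algebra.adjoin K ((A₀ : Set Ω) ∪ s '' (F₀ : Set F)) ≤ ψ₀.range := by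
    refine Algebra.adjoin_le (Set.union_subset (fun z hz => ?_) ?_)
    · exact ⟨⟨z, hz⟩ ⊗ₜ 1, by simp [ψ₀]⟩
    · rintro _ ⟨f, hf, rfl⟩
      exact ⟨1 ⊗ₜ ⟨f, hf⟩, by simp [ψ₀]⟩
  have hli : LinearIndependent X v := by
    rw [Fintype.linearIndependent_iff]
    intro c hc
    choose r hr t ht hrt using fun i => (IntermediateField.mem_adjoin_iff_div).mp (c i).2
    by_contra hne
    push Not at hne
    obtain ⟨i₀, hi₀⟩ := hne
    -- replace vanishing denominators by one
    let t' := fun i => if t i = 0 then 1 else t i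
    have ht' : ∀ i, t' i ∈ ψ₀.range ∧ t' i ≠ 0 := fun i => by
      by_cases h : t i = 0
      · simp only [t', if_pos h]; exact ⟨one_mem _, one_ne_zero⟩
      · simp only [t', if_neg h]; exact ⟨hrange (ht i), h⟩
    let r' := fun i => (c i : Ω) * t' i
    have hr' : ∀ i, r' i ∈ ψ₀.range := fun i => by
      by_cases h : t i = 0
      · simp only [r', t', if_pos h, mul_one]
        rw [hrt i, h, div_zero]
        exact zero_mem _
      · simp only [r', t', if_neg h]
        rw [hrt i, div_mul_cancel₀ _ h]
        exact hrange (hr i)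
    let p := fun i => r' i * ∏ k ∈ Finset.univ.erase i, t' k
    have hp : ∀ i, p i = (c i : Ω) * ∏ k, t' k := fun i => by
      simp only [p, r']
      rw [mul_assoc, Finset.mul_prod_erase _ _ (Finset.mem_univ i)]
    have hpr : ∀ i, p i ∈ ψ₀.range := fun i =>
      mul_mem (hr' i) (prod_mem fun k _ => (ht' k).1)
    choose P hP using hpr
    have h0 : Φ P = 0 := hψ (by
      rw [hΦ, map_zero]
      calc ∑ j, ψ₀ (P j) * v j = ∑ j, (∏ k, t' k) * ((c j : Ω) * v j) :=
            Finset.sum_congr rfl fun j _ => by
              rw [show ψ₀ (P j) = p j from hP j, hp]; ring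
        _ = (∏ k, t' k) * ∑ j, (c j : Ω) * v j := by rw [Finset.mul_sum]
        _ = 0 := by rw [show ∑ j, (c j : Ω) * v j = 0 from hc, mul_zero])
    have hP0 : P i₀ = 0 := congrFun (Φ.map_eq_zero_iff.mp h0) i₀
    have hci : (c i₀ : Ω) * ∏ k, t' k = 0 := by
      rw [← hp, ← show ψ₀ (P i₀) = p i₀ from hP i₀, hP0, map_zero]
    exact hi₀ (Subtype.ext ((mul_eq_zero.mp hci).resolve_right
      (Finset.prod_ne_zero_iff.mpr fun k _ => (ht' k).2)))
  -- spanning
  have hspan : ∀ f : F, s f ∈ Submodule.span X (Set.range v) := fun f => by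
    rw [← b.sum_repr f, map_sum]
    refine Submodule.sum_mem _ fun j _ => ?_
    have : s (b.repr f j • b j) = (⟨s (b.repr f j : F), hF₀X _⟩ : X) • v j := by
      rw [show (b.repr f j • b j : F) = (b.repr f j : F) * b j from rfl, map_mul]
      rfl
    rw [this]
    exact Submodule.smul_mem _ _ (Submodule.subset_span ⟨j, rfl⟩)
  set E : IntermediateField X Ω := adjoin X (Set.range s) with hE
  have halg : ∀ z ∈ Set.range s, IsAlgebraic X z := by
    rintro _ ⟨f, rfl⟩
    obtain ⟨q, hq, hq0⟩ := Algebra.IsIntegral.isIntegral (R := F₀) f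
    let j₀ : F₀ →+* X := ((s : F →+* Ω).comp F₀.val.toRingHom).codRestrict
      X.toSubfield.toSubring hF₀X
    refine IsIntegral.isAlgebraic (show IsIntegral X (s f) from ⟨q.map j₀, hq.map j₀, ?_⟩)
    rw [Polynomial.eval₂_map,
      show (algebraMap X Ω).comp j₀ = (s : F →+* Ω).comp (algebraMap F₀ F) from rfl,
      ← AlgHom.coe_toRingHom, ← Polynomial.hom_eval₂, hq0, map_zero]
  have hEsub : Subalgebra.toSubmodule E.toSubalgebra = Submodule.span X (Set.range v) := by
    rw [hE, adjoin_toSubalgebra_of_isAlgebraic halg, Algebra.adjoin_eq_span]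
    have hcl : (Submonoid.closure (Set.range s) : Set Ω) = Set.range s := by
      refine subset_antisymm ?_ Submonoid.subset_closure
      have : Submonoid.closure (Set.range s) ≤ MonoidHom.mrange (s : F →* Ω) :=
        Submonoid.closure_le.mpr fun z hz => hz
      exact fun z hz => this hz
    rw [hcl]
    refine le_antisymm (Submodule.span_le.mpr ?_) (Submodule.span_mono ?_)
    · rintro _ ⟨f, rfl⟩; exact hspan f
    · rintro _ ⟨j, rfl⟩; exact ⟨b j, rfl⟩
  have hfin : Module.finrank X E = Module.finrank F₀ F := by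
    calc Module.finrank X E = Module.finrank X (Submodule.span X (Set.range v)) :=
          congrArg (fun S : Submodule X Ω => Module.finrank X S) hEsub
      _ = Module.finrank F₀ F := by rw [finrank_span_eq_card hli, Fintype.card_fin]
  have hle : X ≤ adjoin K ((A₀ : Set Ω) ∪ Set.range s) :=
    adjoin.mono K _ _ (Set.union_subset_union_right _ (Set.image_subset_range _ _))
  have hext : extendScalars hle = E := by
    refine restrictScalars_injective K ?_
    rw [extendScalars_restrictScalars, hE, restrictScalars_adjoin]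
    refine le_antisymm (adjoin_le_iff.mpr (Set.union_subset (fun z hz => ?_) fun z hz => ?_))
      (adjoin_le_iff.mpr (Set.union_subset hle
        (Set.subset_union_right.trans (subset_adjoin K _))))
    · exact subset_adjoin K _ (Or.inl (subset_adjoin K _ (Or.inl hz)))
    · exact subset_adjoin K _ (Or.inr hz)
  rw [relfinrank_eq_finrank_of_le hle, hext, hfin]

end FLTAgent.AbVarTors
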