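import Mathlib

/-!
# Transcendence rank of subsets of a field

`rk K S` is the rank of `S` in the matroid of algebraically independent sets. The file gives
monotonicity and subadditivity, invariance under algebraic extension
(`rk_eq_of_isAlgebraic`, `rk_adjoin`), and the comparison with algebraic independence and with
transcendence degrees (`algebraicIndependent_of_rk`, `trdeg_eq_of_rk`, `trdeg_adjoin_eq`).
-/

set_option autoImplicit false
set_option linter.style.haveILetI false

universe u v

noncomputable section

open IntermediateField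

namespace FLTAgent.AbVarTors.TR

variable (K : Type u) {Ω : Type u} [Field K] [Field Ω] [Algebra K Ω]

/-- The transcendence rank over `K` of a set. -/
def rk (S : Set Ω) : ℕ∞ := (AlgebraicIndependent.matroid K Ω).eRk S

variable {K}

theorem rk_mono {S T : Set Ω} (h : S ⊆ T) : rk K S ≤ rk K T :=
  (AlgebraicIndependent.matroid K Ω).eRk_mono h

theorem rk_union_le (S T : Set Ω) : rk K (S ∪ T) ≤ rk K S + rk K T :=
  (AlgebraicIndependent.matroid K Ω).eRk_union_le_eRk_add_eRk S T

theorem rk_le_encard (S : Set Ω) : rk K S ≤ S.encard :=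
  (AlgebraicIndependent.matroid K Ω).eRk_le_encard S

theorem mem_closure_iff {S : Set Ω} {x : Ω} :
    x ∈ (AlgebraicIndependent.matroid K Ω).closure S ↔ IsAlgebraic (adjoin K S) x := by
  rw [AlgebraicIndependent.matroid_closure_eq, SetLike.mem_coe, Subalgebra.mem_algebraicClosure,
    IntermediateField.isAlgebraic_adjoin_iff]

theorem subset_closure_self (S : Set Ω) :
    S ⊆ (AlgebraicIndependent.matroid K Ω).closure S :=
  fun _ hx => mem_closure_iff.mpr
    (isAlgebraic_algebraMap (⟨_, IntermediateField.subset_adjoin K S hx⟩ : adjoin K S))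

/-- Adding elements algebraic over `S` does not change the rank. -/
theorem rk_eq_of_isAlgebraic {S T : Set Ω} (hST : S ⊆ T)
    (h : ∀ x ∈ T, IsAlgebraic (adjoin K S) x) : rk K T = rk K S := by
  refine le_antisymm ?_ (rk_mono hST)
  rw [rk, rk, ← (AlgebraicIndependent.matroid K Ω).eRk_closure_eq S]
  exact (AlgebraicIndependent.matroid K Ω).eRk_mono fun x hx => mem_closure_iff.mpr (h x hx)

theorem rk_union_eq_of_isAlgebraic {S T : Set Ω} (h : ∀ x ∈ T, IsAlgebraic (adjoin K S) x) :
    rk K (S ∪ T) = rk K S := by
  refine rk_eq_of_isAlgebraic Set.subset_union_left ?_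
  rintro x (hx | hx)
  · exact mem_closure_iff.mp (subset_closure_self S hx)
  · exact h x hx

theorem rk_adjoin_union (S T : Set Ω) :
    rk K ((adjoin K S : Set Ω) ∪ T) = rk K (S ∪ T) := by
  refine rk_eq_of_isAlgebraic (Set.union_subset_union_left T (IntermediateField.subset_adjoin K S)) ?_
  rintro x (hx | hx)
  · exact isAlgebraic_algebraMap
      (⟨x, IntermediateField.adjoin.mono K _ _ Set.subset_union_left hx⟩ : adjoin K (S ∪ T))
  · exact mem_closure_iff.mp (subset_closure_self _ (Or.inr hx))

theorem rk_adjoin (S : Set Ω) : rk K (adjoin K S : Set Ω) = rk K S := by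
  simpa using rk_adjoin_union (K := K) S ∅

theorem rk_range {ι : Type v} [Finite ι] {f : ι → Ω} (hf : AlgebraicIndependent K f) :
    rk K (Set.range f) = Nat.card ι := by
  have h : (AlgebraicIndependent.matroid K Ω).Indep (Set.range f) :=
    AlgebraicIndependent.matroid_indep_iff.mpr (AlgebraicIndependent.coe_range hf)
  rw [rk, h.eRk_eq_encard, ← Set.image_univ,
    (hf.injective.injOn).encard_image, Set.encard_univ, ENat.card_eq_coe_natCard]

theorem algebraicIndependent_of_rk {ι : Type v} [Finite ι] {f : ι → Ω}
    (h : (Nat.card ι : ℕ∞) ≤ rk K (Set.range f)) : AlgebraicIndependent K f := by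
  classical
  have h1 := rk_le_encard (K := K) (Set.range f)
  have hfin : (Set.range f).Finite := Set.finite_range f
  have h2 : (Set.range f).encard ≤ (Nat.card ι : ℕ∞) := by
    rw [← Set.image_univ, ← ENat.card_eq_coe_natCard, ← Set.encard_univ]
    exact Set.encard_image_le f _
  have hinj : Function.Injective f := by
    have := Fintype.ofFinite ι
    have h3 : (Finset.univ.image f).card = (Finset.univ : Finset ι).card := by
      refine le_antisymm Finset.card_image_le ?_
      have h4 := h.trans h1
      rw [show Set.range f = ((Finset.univ.image f : Finset Ω) : Set Ω) by simp,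
        Set.encard_coe_eq_coe_finsetCard, Nat.card_eq_fintype_card, Nat.cast_le] at h4
      simpa using h4
    exact fun a b hab => Finset.card_image_iff.mp h3 (Finset.mem_univ a) (Finset.mem_univ b) hab
  refine (algebraicIndependent_subtype_range hinj).mp ?_
  obtain ⟨I, hI⟩ := (AlgebraicIndependent.matroid K Ω).exists_isBasis' (Set.range f)
  have he : I = Set.range f := (hfin.subset hI.subset).eq_of_subset_of_encard_le hI.subset
    (by rw [hI.encard_eq_eRk]; exact h2.trans h)
  exact AlgebraicIndependent.matroid_indep_iff.mp (he ▸ hI.indep)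

/-- The transcendence degree of an intermediate field is its rank. -/
theorem trdeg_eq_of_rk {L : IntermediateField K Ω} {n : ℕ} (h : rk K (L : Set Ω) = n) :
    Algebra.trdeg K L = n := by
  refine le_antisymm ?_ ?_
  · obtain ⟨s, hs⟩ := exists_isTranscendenceBasis K L
    rw [← hs.cardinalMk_eq_trdeg]
    have hind : AlgebraicIndependent K fun x : s => ((x : L) : Ω) :=
      hs.1.map' (f := L.val) Subtype.val_injective
    have h1 : (AlgebraicIndependent.matroid K Ω).Indep (Set.range fun x : s => ((x : L) : Ω)) :=
      AlgebraicIndependent.matroid_indep_iff.mpr (AlgebraicIndependent.coe_range hind)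
    have h2 := h1.eRk_eq_encard
    have h3 : rk K (Set.range fun x : s => ((x : L) : Ω)) ≤ n :=
      h ▸ rk_mono (by rintro _ ⟨x, rfl⟩; exact (x : L).2)
    rw [rk, h2, ← Set.image_univ, (hind.injective.injOn).encard_image, Set.encard_univ] at h3
    have hfin : Finite s := ENat.card_lt_top.mp (lt_of_le_of_lt h3 (ENat.natCast_lt_top n))
    rw [← Nat.cast_card]
    rw [ENat.card_eq_coe_natCard, Nat.cast_le] at h3
    exact_mod_cast h3
  · obtain ⟨B, hB⟩ := (AlgebraicIndependent.matroid K Ω).exists_isBasis (L : Set Ω)
    obtain ⟨hind, hBL, -⟩ := AlgebraicIndependent.matroid_isBasis_iff.mp hB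
    let y : B → L := fun b => ⟨b, hBL b.2⟩
    have hyind : AlgebraicIndependent K y := AlgebraicIndependent.of_comp L.val hind
    refine le_trans (le_of_eq ?_) hyind.cardinalMk_le_trdeg
    have hcard : B.encard = n := hB.encard_eq_eRk.trans h
    haveI : Finite B := (Set.finite_of_encard_eq_coe hcard).to_subtype
    rw [← Nat.cast_card, Nat.card_coe_set_eq, Set.ncard_def, hcard]
    rfl

set_option synthInstance.maxHeartbeats 400000 in
/-- Relative transcendence degree as a difference of ranks. -/
theorem trdeg_adjoin_eq (k : IntermediateField K Ω) (T : Set Ω) {a m : ℕ}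
    (ha : rk K (k : Set Ω) = a) (hm : rk K ((k : Set Ω) ∪ T) = (a + m : ℕ)) :
    Algebra.trdeg k (adjoin k T) = m := by
  have h1 : rk K (((adjoin k T).restrictScalars K : IntermediateField K Ω) : Set Ω) = (a + m : ℕ) := by
    rw [IntermediateField.restrictScalars_adjoin, rk_adjoin, hm]
  have e : Algebra.trdeg K ((adjoin k T).restrictScalars K) = (a + m : ℕ) := trdeg_eq_of_rk h1
  have h2 := trdeg_add_eq (R := K) (S := k) (A := (adjoin k T))
  rw [trdeg_eq_of_rk ha, show Algebra.trdeg K (adjoin k T) = (a + m : ℕ) from e, Nat.cast_add] at h2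
  exact Cardinal.eq_of_add_eq_add_left h2 (Cardinal.natCast_lt_aleph0)

theorem isAlgebraic_of_rk_le {S : Set Ω} {x : Ω} {a : ℕ} (ha : rk K S = a)
    (h : rk K (insert x S) ≤ a) : IsAlgebraic (adjoin K S) x := by
  by_contra hx
  have h1 := (AlgebraicIndependent.matroid K Ω).eRk_insert_eq_add_one (e := x) (X := S)
    ⟨Set.mem_univ x, fun h' => hx (mem_closure_iff.mp h')⟩
  rw [rk] at ha h
  rw [h1, ha] at h
  norm_cast at h
  omega

theorem transcendental_of_rk_ne {S : Set Ω} {x : Ω} (h : rk K (insert x S) ≠ rk K S) :
    Transcendental (adjoin K S) x := fun hx => h (by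
  rw [← Set.union_singleton]
  exact rk_union_eq_of_isAlgebraic (by rintro _ rfl; exact hx))

theorem rk_insert_le (x : Ω) (S : Set Ω) : rk K (insert x S) ≤ rk K S + 1 :=
  (AlgebraicIndependent.matroid K Ω).eRk_insert_le_add_one x S

theorem rk_algebraMap_range : rk K (Set.range (algebraMap K Ω)) = 0 := by
  rw [← IntermediateField.coe_bot (F := K) (E := Ω), ← IntermediateField.adjoin_empty K Ω,
    rk_adjoin]
  exact (AlgebraicIndependent.matroid K Ω).eRk_empty

end FLTAgent.AbVarTors.TR
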