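import Mathlib
import Fermat.Agent.AbVarTors.Fields
import Fermat.Agent.AbVarTors.Count.Rank

/-!
# The rank of the field of a point

The residue field of a point of `AVData K g` has transcendence rank at most `g`
(`AVData.rk_resField_le`), a point of rank `g` is generic (`AVData.loc_eq_top_of_rk`), and the
field of the point of an embedding of the function field is its range
(`AVData.resField_ofHom`).
-/

set_option autoImplicit false
set_option linter.style.haveILetI false
set_option linter.unusedSectionVars false

universe u

noncomputable section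

open IntermediateField

namespace FLTAgent.AbVarTors.TR

variable {K : Type u} {Ω : Type u} [Field K] [Field Ω] [Algebra K Ω]

/-- A bound on the transcendence degree bounds the rank. -/
theorem rk_le_of_trdeg_le {L : IntermediateField K Ω} {n : ℕ}
    (h : Algebra.trdeg K L ≤ (n : Cardinal)) : rk K (L : Set Ω) ≤ n := by
  obtain ⟨B, hB⟩ := (AlgebraicIndependent.matroid K Ω).exists_isBasis (L : Set Ω)
  obtain ⟨hind, hBL, -⟩ := AlgebraicIndependent.matroid_isBasis_iff.mp hB
  let y : B → L := fun b => ⟨b, hBL b.2⟩
  have hyind : AlgebraicIndependent K y := AlgebraicIndependent.of_comp L.val hind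
  have h1 := hyind.cardinalMk_le_trdeg.trans h
  haveI : Finite B := Cardinal.mk_lt_aleph0_iff.mp (h1.trans_lt Cardinal.natCast_lt_aleph0)
  rw [← Nat.cast_card, Nat.cast_le, Nat.card_coe_set_eq] at h1
  rw [rk, ← hB.encard_eq_eRk, ← B.toFinite.cast_ncard_eq]
  exact_mod_cast h1

end FLTAgent.AbVarTors.TR

namespace FLTAgent.AbVarTors.AVData

variable {K : Type u} [Field K] {g : ℕ} (D : AVData K g)
variable {E : Type u} [Field E] [Algebra K E]

theorem val_mem_resField (P : D.Pt E) (x : D.F) : D.val P x ∈ D.resField P := by
  by_cases h : x ∈ D.loc P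
  · rw [D.val_eq P h]
    exact subset_adjoin K _ ⟨_, rfl⟩
  · rw [D.val_of_notMem P h]
    exact zero_mem _

/-- The field of a point has rank at most `g`. -/
theorem rk_resField_le (P : D.Pt E) : TR.rk K (D.resField P : Set E) ≤ g :=
  TR.rk_le_of_trdeg_le (D.trdeg_resField_le P)

/-- A point whose field has rank `g` is generic. -/
theorem loc_eq_top_of_rk {P : D.Pt E} (h : (g : ℕ∞) ≤ TR.rk K (D.resField P : Set E)) :
    D.loc P = ⊤ :=
  D.loc_eq_top_of_trdeg P (TR.trdeg_eq_of_rk (le_antisymm (D.rk_resField_le P) h)).ge

/-- The field of a point given by an embedding of the function field is its range. -/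
theorem resField_ofHom (σ : D.F →ₐ[K] E) : D.resField (D.ofHom σ) = σ.fieldRange := by
  rw [ofHom, D.resField_map, D.resField_η, ← AlgHom.fieldRange_eq_map]

theorem coe_resField_ofHom (σ : D.F →ₐ[K] E) :
    (D.resField (D.ofHom σ) : Set E) = Set.range σ := by
  rw [resField_ofHom, AlgHom.coe_fieldRange]

end FLTAgent.AbVarTors.AVData
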