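import Mathlib
import Fermat.Agent.AbVarTors.Count.Rank

/-!
# Transcendence rank, homomorphisms and algebraic closures

Field homomorphisms preserve the rank (`rk_image`), so does relative algebraic closure
(`rk_algebraicClosure_union`, `rk_algebraicClosure`); an element not raising the rank lies in the
relative algebraic closure (`mem_algebraicClosure_of_rk`), which is algebraically closed inside an
algebraically closed field (`isAlgClosed_algebraicClosure`).
-/

set_option autoImplicit false
set_option linter.style.haveILetI false

universe u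

noncomputable section

open IntermediateField

namespace FLTAgent.AbVarTors.TR

variable {K : Type u} [Field K] {A B : Type u} [Field A] [Algebra K A] [Field B] [Algebra K B]

theorem isAlgebraic_image (f : A →ₐ[K] B) {S : Set A} {x : A} (h : IsAlgebraic (adjoin K S) x) :
    IsAlgebraic (adjoin K (f '' S)) (f x) := by
  obtain ⟨p, hp0, hp⟩ := h
  have hle : (adjoin K S).map f ≤ adjoin K (f '' S) := (adjoin_map K S f).le
  let φ : adjoin K S →+* adjoin K (f '' S) :=
    (IntermediateField.inclusion hle).toRingHom.comp
      ((adjoin K S).equivMap f).toAlgHom.toRingHom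
  refine ⟨p.map φ, (Polynomial.map_ne_zero_iff φ.injective).mpr hp0, ?_⟩
  rw [Polynomial.aeval_def, Polynomial.eval₂_map,
    show (algebraMap (adjoin K (f '' S)) B).comp φ = f.toRingHom.comp (algebraMap (adjoin K S) A)
      from RingHom.ext fun a => rfl]
  have h2 := Polynomial.hom_eval₂ p (algebraMap (adjoin K S) A) f.toRingHom x
  rw [show Polynomial.eval₂ (algebraMap _ A) x p = 0 from hp, map_zero] at h2
  exact h2.symm

theorem indep_image (f : A →ₐ[K] B) {I : Set A}
    (h : (AlgebraicIndependent.matroid K A).Indep I) :
    (AlgebraicIndependent.matroid K B).Indep (f '' I) := by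
  have h1 := ((AlgebraicIndependent.matroid_indep_iff.mp h).map' (f := f) f.injective).coe_range
  have e : Set.range (f ∘ (fun x : I => id (x : A))) = f '' I := by
    rw [Set.range_comp]
    simp
  rw [e] at h1
  exact AlgebraicIndependent.matroid_indep_iff.mpr h1

/-- Homomorphisms of fields preserve the rank. -/
theorem rk_image (f : A →ₐ[K] B) (S : Set A) : rk K (f '' S) = rk K S := by
  obtain ⟨I, hI⟩ := (AlgebraicIndependent.matroid K A).exists_isBasis' S
  have halg : ∀ x ∈ S, IsAlgebraic (adjoin K I) x := fun x hx =>
    mem_closure_iff.mp (hI.closure_eq_closure ▸ subset_closure_self S hx)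
  rw [rk_eq_of_isAlgebraic (Set.image_mono hI.subset)
    (by rintro _ ⟨x, hx, rfl⟩; exact isAlgebraic_image f (halg x hx)), rk, rk,
    (indep_image f hI.indep).eRk_eq_encard, Set.InjOn.encard_image (fun a _ b _ (h : f a = f b) => f.toRingHom.injective h), hI.encard_eq_eRk]

theorem rk_union_range_algebraMap (S : Set B) : rk K (S ∪ Set.range (algebraMap K B)) = rk K S :=
  rk_union_eq_of_isAlgebraic (by
    rintro _ ⟨a, rfl⟩
    exact isAlgebraic_algebraMap (algebraMap K (adjoin K S) a))

/-- The relative algebraic closure of a generated field has the same rank. -/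
theorem rk_algebraicClosure_union (S T : Set B) :
    rk K ((algebraicClosure (adjoin K S) B : Set B) ∪ T) = rk K (S ∪ T) := by
  refine rk_eq_of_isAlgebraic (Set.union_subset_union_left T fun x hx =>
    (algebraicClosure (adjoin K S) B).algebraMap_mem ⟨x, subset_adjoin K S hx⟩) ?_
  rintro x (hx | hx)
  · have h1 : IsAlgebraic (adjoin K S) x := mem_algebraicClosure_iff'.mp hx |>.isAlgebraic
    obtain ⟨p, hp0, hp⟩ := h1
    let φ : adjoin K S →+* adjoin K (S ∪ T) :=
      (IntermediateField.inclusion (adjoin.mono K _ _ Set.subset_union_left)).toRingHom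
    refine ⟨p.map φ, (Polynomial.map_ne_zero_iff φ.injective).mpr hp0, ?_⟩
    rw [Polynomial.aeval_def, Polynomial.eval₂_map]
    exact hp
  · exact isAlgebraic_algebraMap
      (⟨x, subset_adjoin K _ (Or.inr hx)⟩ : adjoin K (S ∪ T))

theorem rk_algebraicClosure (S : Set B) :
    rk K (algebraicClosure (adjoin K S) B : Set B) = rk K S := by
  simpa using rk_algebraicClosure_union S ∅

/-- An element which does not raise the rank of a finite rank set is algebraic over it. -/
theorem mem_algebraicClosure_of_rk {S : Set B} {x : B} {a : ℕ} (ha : rk K S = a)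
    (h : rk K (insert x S) ≤ a) : x ∈ algebraicClosure (adjoin K S) B :=
  mem_algebraicClosure_iff.mpr (isAlgebraic_of_rk_le ha h)

theorem rk_insert_of_notMem {S : Set B} {x : B}
    (h : x ∉ algebraicClosure (adjoin K S) B) : rk K (insert x S) = rk K S + 1 :=
  (AlgebraicIndependent.matroid K B).eRk_insert_eq_add_one (e := x) (X := S)
    ⟨Set.mem_univ x, fun h' => h (mem_algebraicClosure_iff.mpr (mem_closure_iff.mp h'))⟩

theorem isAlgClosed_algebraicClosure [IsAlgClosed B] (L : IntermediateField K B) :
    IsAlgClosed (algebraicClosure L B) :=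
  IsAlgClosure.isAlgClosed (R := L)

end FLTAgent.AbVarTors.TR
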