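import Mathlib
import Fermat.Agent.AbVarTors.Data
import Fermat.Agent.AbVarTors.Count.Rank

/-!
# Independent generic points

`GenSys D` consists of an algebraically closed field `Ω` with `g + 1` embeddings of the function
field of `D` whose images are algebraically independent, together with one further transcendental
element. `exists_genSys` constructs one by extending a transcendence basis
(`exists_algHom_extending`).
-/

set_option autoImplicit false
set_option linter.style.haveILetI false
set_option linter.unusedSectionVars false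

universe u

noncomputable section

open IntermediateField

namespace FLTAgent.AbVarTors

variable {K : Type u} [Field K] {g : ℕ} (D : AVData K g)

/-- Extending an algebraically independent family to an embedding of a field algebraic over it. -/
theorem exists_algHom_extending {F Ω : Type u} [Field F] [Algebra K F] [Field Ω] [Algebra K Ω]
    [IsAlgClosed Ω] {ι : Type} {t : ι → F} (ht : IsTranscendenceBasis K t) {z : ι → Ω}
    (hz : AlgebraicIndependent K z) : ∃ σ : F →ₐ[K] Ω, ∀ i, σ (t i) = z i := by
  let R := IntermediateField.adjoin K (Set.range t)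
  let ψ : R →ₐ[K] Ω :=
    (IsFractionRing.liftAlgHom (K := FractionRing (MvPolynomial ι K))
      (algebraicIndependent_iff_injective_aeval.mp hz)).comp ht.1.aevalEquivField.symm.toAlgHom
  have hψ : ∀ i, ψ ⟨t i, IntermediateField.subset_adjoin K _ ⟨i, rfl⟩⟩ = z i := by
    intro i
    have e : ht.1.aevalEquivField.symm ⟨t i, IntermediateField.subset_adjoin K _ ⟨i, rfl⟩⟩ =
        algebraMap (MvPolynomial ι K) (FractionRing (MvPolynomial ι K)) (MvPolynomial.X i) := by
      rw [AlgEquiv.symm_apply_eq]
      refine Subtype.ext ?_
      refine Eq.trans ?_ (AlgebraicIndependent.aevalEquivField_apply_coe ht.1 _).symm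
      refine Eq.trans ?_ (IsFractionRing.lift_algebraMap (algebraicIndependent_iff_injective_aeval.mp ht.1)
        (MvPolynomial.X i)).symm
      exact (MvPolynomial.aeval_X t i).symm
    show IsFractionRing.liftAlgHom (K := FractionRing (MvPolynomial ι K))
      (algebraicIndependent_iff_injective_aeval.mp hz) (ht.1.aevalEquivField.symm _) = _
    rw [e]
    show IsFractionRing.lift (K := FractionRing (MvPolynomial ι K))
      (algebraicIndependent_iff_injective_aeval.mp hz) (algebraMap _ _ _) = _
    rw [IsFractionRing.lift_algebraMap]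
    exact MvPolynomial.aeval_X z i
  letI : Algebra R Ω := ψ.toRingHom.toAlgebra
  haveI : IsScalarTower K R Ω := IsScalarTower.of_algebraMap_eq fun a => (ψ.commutes a).symm
  haveI : Algebra.IsAlgebraic R F := ht.isAlgebraic_field
  refine ⟨(IsAlgClosed.lift (R := R) (S := F) (M := Ω)).restrictScalars K, fun i => ?_⟩
  refine Eq.trans ?_ (hψ i)
  exact (IsAlgClosed.lift (R := R) (S := F) (M := Ω)).commutes
    (⟨t i, IntermediateField.subset_adjoin K _ ⟨i, rfl⟩⟩ : R)

/-- Independent generic points of the function field in an algebraically closed field. -/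
structure GenSys where
  Ω : Type u
  [instF : Field Ω]
  [instA : Algebra K Ω]
  [instC : IsAlgClosed Ω]
  σ : Option (Fin g) → D.F →ₐ[K] Ω
  spare : Ω
  rk_union : ∀ S : Finset (Option (Fin g)),
    TR.rk K (⋃ j ∈ S, Set.range (σ j)) = (S.card * g : ℕ)
  rk_spare : TR.rk K (insert spare (⋃ j, Set.range (σ j))) = ((g + 1) * g + 1 : ℕ)

attribute [instance] GenSys.instF GenSys.instA GenSys.instC

omit D in
/-- An algebraically closed field with a given finite number of independent elements. -/
theorem exists_algClosed_indep (K : Type u) [Field K] (ι : Type) :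
    ∃ (Ω : Type u) (_ : Field Ω) (_ : Algebra K Ω) (_ : IsAlgClosed Ω) (X : ι → Ω),
      AlgebraicIndependent K X := by
  let A := FractionRing (MvPolynomial (ULift.{u} ι) K)
  refine ⟨AlgebraicClosure A, inferInstance, inferInstance, inferInstance,
    fun i => algebraMap A (AlgebraicClosure A)
      (algebraMap (MvPolynomial (ULift.{u} ι) K) A (MvPolynomial.X (ULift.up i))), ?_⟩
  have h1 : AlgebraicIndependent K fun k : ULift.{u} ι =>
      algebraMap (MvPolynomial (ULift.{u} ι) K) A (MvPolynomial.X k) :=
    (MvPolynomial.algebraicIndependent_X _ K).map'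
      (f := IsScalarTower.toAlgHom K (MvPolynomial (ULift.{u} ι) K) A)
      (IsFractionRing.injective (MvPolynomial (ULift.{u} ι) K) A)
  exact ((h1.map' (f := IsScalarTower.toAlgHom K A (AlgebraicClosure A))
    (RingHom.injective _)).comp ULift.up fun a b h => ULift.up_injective h)

set_option maxHeartbeats 800000 in
theorem exists_genSys : Nonempty (GenSys D) := by
  classical
  obtain ⟨s, hs⟩ := exists_isTranscendenceBasis K D.F
  have hcard : Cardinal.mk s = g := hs.cardinalMk_eq_trdeg.trans D.trdeg_eq
  haveI : Finite s := Cardinal.mk_lt_aleph0_iff.mp (hcard ▸ Cardinal.natCast_lt_aleph0)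
  have hcs : Nat.card s = g := by rw [Nat.card, hcard, Cardinal.toNat_natCast]
  let e : Fin g ≃ s := (finCongr hcs.symm).trans (Finite.equivFin s).symm
  let t : Fin g → D.F := fun i => ((e i : s) : D.F)
  have ht : IsTranscendenceBasis K t := hs.comp_equiv e
  obtain ⟨Ω, _, _, _, X, hX⟩ :=
    exists_algClosed_indep K ((Option (Fin g) × Fin g) ⊕ Unit)
  choose σ hσ using fun j : Option (Fin g) => exists_algHom_extending ht
    (z := fun i => X (Sum.inl (j, i))) (hX.comp (fun i => Sum.inl (j, i))
      (fun a b h => (Prod.ext_iff.mp (Sum.inl_injective h)).2))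
  have halg : ∀ (S : Finset (Option (Fin g))) (T : Set Ω),
      TR.rk K ((⋃ j ∈ S, Set.range (σ j)) ∪ T) =
        TR.rk K (Set.range (fun p : S × Fin g => X (Sum.inl ((p.1 : Option (Fin g)), p.2))) ∪ T) := by
    intro S T
    refine TR.rk_eq_of_isAlgebraic ?_ ?_
    · rintro x (⟨⟨⟨j, hj⟩, i⟩, rfl⟩ | hx)
      · exact Or.inl (Set.mem_iUnion₂.mpr ⟨j, hj, t i, hσ j i⟩)
      · exact Or.inr hx
    · rintro x (hx | hx)
      · obtain ⟨j, hj, y, rfl⟩ := Set.mem_iUnion₂.mp hx
        set B := IntermediateField.adjoin K
          (Set.range (fun p : S × Fin g => X (Sum.inl ((p.1 : Option (Fin g)), p.2))) ∪ T)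
        haveI : Algebra.IsAlgebraic (IntermediateField.adjoin K (Set.range t)) D.F :=
          ht.isAlgebraic_field
        have hy : IsAlgebraic (IntermediateField.adjoin K (Set.range t)) y :=
          Algebra.IsAlgebraic.isAlgebraic y
        have hle : (IntermediateField.adjoin K (Set.range t)).map (σ j) ≤ B := by
          rw [adjoin_map, ← Set.range_comp]
          refine adjoin_le_iff.mpr ?_
          rintro _ ⟨i, rfl⟩
          exact IntermediateField.subset_adjoin K _ (Or.inl ⟨(⟨j, hj⟩, i), (hσ j i).symm⟩)
        obtain ⟨p, hp0, hp⟩ := hy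
        let φ : IntermediateField.adjoin K (Set.range t) →+* B :=
          (IntermediateField.inclusion hle).toRingHom.comp
            ((IntermediateField.adjoin K (Set.range t)).equivMap (σ j)).toAlgHom.toRingHom
        refine ⟨p.map φ, (Polynomial.map_ne_zero_iff φ.injective).mpr hp0, ?_⟩
        rw [Polynomial.aeval_def, Polynomial.eval₂_map,
          show (algebraMap B Ω).comp φ =
            (σ j).toRingHom.comp (algebraMap (IntermediateField.adjoin K (Set.range t)) D.F) from
            RingHom.ext fun a => rfl]
        have h2 := Polynomial.hom_eval₂ p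
          (algebraMap (IntermediateField.adjoin K (Set.range t)) D.F) (σ j).toRingHom y
        rw [show Polynomial.eval₂ (algebraMap _ D.F) y p = 0 from hp, map_zero] at h2
        exact h2.symm
      · exact isAlgebraic_algebraMap
          (⟨x, IntermediateField.subset_adjoin K _ (Or.inr hx)⟩ : IntermediateField.adjoin K _)
  refine ⟨{ Ω := Ω, σ := σ, spare := X (Sum.inr ()), rk_union := fun S => ?_, rk_spare := ?_ }⟩
  · have h := halg S ∅
    simp only [Set.union_empty] at h
    rw [h, ← Function.comp_def X (fun p : S × Fin g => Sum.inl ((p.1 : Option (Fin g)), p.2)),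
      TR.rk_range (hX.comp (fun p : S × Fin g => Sum.inl ((p.1 : Option (Fin g)), p.2))
      (fun a b h => by
        have := Sum.inl_injective h
        simp only [Prod.ext_iff, SetLike.coe_eq_coe] at this
        exact Prod.ext this.1 this.2)), Nat.card_prod, Nat.card_fin, Nat.card_eq_fintype_card,
      Fintype.card_coe]
  · have e : insert (X (Sum.inr ())) (⋃ j, Set.range (σ j)) =
        (⋃ j ∈ (Finset.univ : Finset (Option (Fin g))), Set.range (σ j)) ∪ {X (Sum.inr ())} := by
      simp [Set.union_comm]
    rw [e, halg]
    have e2 : Set.range (fun p : ↥(Finset.univ : Finset (Option (Fin g))) × Fin g =>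
        X (Sum.inl ((p.1 : Option (Fin g)), p.2))) ∪ {X (Sum.inr ())} = Set.range X := by
      ext x
      constructor
      · rintro (⟨p, rfl⟩ | rfl)
        · exact ⟨_, rfl⟩
        · exact ⟨_, rfl⟩
      · rintro ⟨(⟨j, i⟩ | ⟨⟩), rfl⟩
        · exact Or.inl ⟨(⟨j, Finset.mem_univ j⟩, i), rfl⟩
        · exact Or.inr rfl
    rw [e2, TR.rk_range hX]
    simp

end FLTAgent.AbVarTors
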