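import Mathlib
import Fermat.Agent.AbVarTors.Count.Setup
import Fermat.Agent.AbVarTors.Count.Points
import Fermat.Agent.AbVarTors.Count.RankMap

/-!
# Translates of a generic point by independent generic points

For a `GenSys` this defines the moving point `η₀`, the translating points `c i`, their coordinates
`C` and `Cne i`, the field `full` of all coordinates and the values `w x m i` of `x i` at
`c i + m i • η₀`, with the transcendence ranks of the sets and fields involved
(`rk_C`, `rk_C_union_none`, `rk_full`, `rk_le_of_subset_full`).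
-/

set_option autoImplicit false
set_option linter.style.haveILetI false
set_option linter.unusedSectionVars false

universe u

noncomputable section

open IntermediateField

namespace FLTAgent.AbVarTors.GenSys

variable {K : Type u} [Field K] {g : ℕ} {D : AVData K g} (G : GenSys D)

/-- The moving generic point. -/
def η₀ : D.Pt G.Ω := D.ofHom (G.σ none)

/-- The translating generic points. -/
def c (i : Fin g) : D.Pt G.Ω := D.ofHom (G.σ (some i))

/-- The coordinates of the translating points. -/
def C : Set G.Ω := ⋃ i, Set.range (G.σ (some i))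

/-- The coordinates of all translating points but one. -/
def Cne (i : Fin g) : Set G.Ω := ⋃ j ∈ ({i}ᶜ : Set (Fin g)), Set.range (G.σ (some j))

/-- The field of all coordinates. -/
def full : IntermediateField K G.Ω := adjoin K (G.C ∪ Set.range (G.σ none))

/-- The value of `x i` at a translate of a multiple of the moving point. -/
def w (x : Fin g → D.F) (m : Fin g → ℤ) (i : Fin g) : G.Ω := D.val (G.c i + m i • G.η₀) (x i)

theorem range_σ_subset_C (i : Fin g) : Set.range (G.σ (some i)) ⊆ G.C := fun _ hz =>
  Set.mem_iUnion.mpr ⟨i, hz⟩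

theorem range_σ_subset_Cne {i j : Fin g} (h : j ≠ i) : Set.range (G.σ (some j)) ⊆ G.Cne i :=
  fun _ hz => Set.mem_iUnion₂.mpr ⟨j, h, hz⟩

theorem C_eq (i : Fin g) : G.C = G.Cne i ∪ Set.range (G.σ (some i)) := by
  ext z
  constructor
  · intro hz
    obtain ⟨j, hj⟩ := Set.mem_iUnion.mp hz
    by_cases h : j = i
    · exact Or.inr (h ▸ hj)
    · exact Or.inl (G.range_σ_subset_Cne h hj)
  · rintro (hz | hz)
    · obtain ⟨j, -, hj⟩ := Set.mem_iUnion₂.mp hz
      exact G.range_σ_subset_C j hj
    · exact G.range_σ_subset_C i hz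

theorem Cne_subset_C (i : Fin g) : G.Cne i ⊆ G.C := by
  rw [G.C_eq i]; exact Set.subset_union_left

theorem C_subset_full : G.C ⊆ G.full := fun _ hz => subset_adjoin K _ (Or.inl hz)

theorem range_none_subset_full : Set.range (G.σ none) ⊆ G.full :=
  fun _ hz => subset_adjoin K _ (Or.inr hz)

theorem resField_η₀ : D.resField G.η₀ = (G.σ none).fieldRange := D.resField_ofHom _

theorem resField_c (i : Fin g) : D.resField (G.c i) = (G.σ (some i)).fieldRange :=
  D.resField_ofHom _

theorem rk_σ (j : Option (Fin g)) : TR.rk K (Set.range (G.σ j)) = g := by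
  have h := G.rk_union {j}
  simpa using h

theorem rk_C : TR.rk K G.C = (g * g : ℕ) := by
  have h := G.rk_union (Finset.univ.map Function.Embedding.some)
  rw [show G.C = ⋃ j ∈ Finset.univ.map (Function.Embedding.some (α := Fin g)), Set.range (G.σ j) by
    simp [C]]
  rw [h, Finset.card_map, Finset.card_fin]

theorem union_all : G.C ∪ Set.range (G.σ none) = ⋃ j, Set.range (G.σ j) := by
  rw [C, Set.iUnion_option (fun j => Set.range (G.σ j)), Set.union_comm]

theorem rk_C_union_none : TR.rk K (G.C ∪ Set.range (G.σ none)) = (g * g + g : ℕ) := by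
  have h := G.rk_union Finset.univ
  rw [Finset.card_univ, Fintype.card_option, Fintype.card_fin] at h
  rw [union_all, ← add_one_mul g g]
  simpa using h

theorem rk_full : TR.rk K (G.full : Set G.Ω) = (g * g + g : ℕ) := by
  rw [full, TR.rk_adjoin, rk_C_union_none]

theorem rk_full_spare :
    TR.rk K (insert G.spare (G.C ∪ Set.range (G.σ none))) = (g * g + g + 1 : ℕ) := by
  rw [union_all, G.rk_spare, add_one_mul]

theorem rk_Cne_le (i : Fin g) : TR.rk K (G.Cne i) ≤ ((g - 1) * g : ℕ) := by
  have h := G.rk_union ((Finset.univ.erase i).map Function.Embedding.some)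
  rw [Finset.card_map, Finset.card_erase_of_mem (Finset.mem_univ i), Finset.card_fin] at h
  refine (TR.rk_mono ?_).trans h.le
  intro z hz
  obtain ⟨j, hj, hz⟩ := Set.mem_iUnion₂.mp hz
  exact Set.mem_iUnion₂.mpr ⟨some j, Finset.mem_map.mpr
    ⟨j, Finset.mem_erase.mpr ⟨hj, Finset.mem_univ j⟩, rfl⟩, hz⟩

theorem rk_Cne_union_none_le (i : Fin g) :
    TR.rk K (G.Cne i ∪ Set.range (G.σ none)) ≤ (g * g : ℕ) := by
  have hi : 1 ≤ g := i.pos
  refine (TR.rk_union_le _ _).trans ?_
  calc _ ≤ (((g - 1) * g : ℕ) : ℕ∞) + (g : ℕ) := add_le_add (G.rk_Cne_le i) (G.rk_σ none).le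
    _ = ((g * g : ℕ) : ℕ∞) := by
      rw [← Nat.cast_add]
      congr 1
      conv_rhs => rw [← Nat.sub_add_cancel hi]
      rw [Nat.add_one_mul, Nat.sub_add_cancel hi]

/-- `P` has coordinates in a field, hence so do its translates of multiples. -/
theorem resField_translate_le {L : IntermediateField K G.Ω} {P Q : D.Pt G.Ω}
    (hP : D.resField P ≤ L) (hQ : D.resField Q ≤ L) (m : ℤ) : D.resField (P + m • Q) ≤ L :=
  (D.resField_add_le P (m • Q)).trans (sup_le hP ((D.resField_zsmul_le Q m).trans hQ))

theorem w_mem {L : IntermediateField K G.Ω} (x : Fin g → D.F) (m : Fin g → ℤ) (i : Fin g)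
    (hc : Set.range (G.σ (some i)) ⊆ L) (h0 : Set.range (G.σ none) ⊆ L) : G.w x m i ∈ L := by
  refine G.resField_translate_le ?_ ?_ (m i) (D.val_mem_resField _ (x i))
  · rw [G.resField_c]; exact hc
  · rw [G.resField_η₀]; exact h0

theorem w_mem_full (x : Fin g → D.F) (m : Fin g → ℤ) (i : Fin g) : G.w x m i ∈ G.full :=
  G.w_mem x m i ((G.range_σ_subset_C i).trans G.C_subset_full) G.range_none_subset_full

/-- Subsets of the field of all coordinates have bounded rank. -/
theorem rk_le_of_subset_full {S : Set G.Ω} (hS : S ⊆ G.full) :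
    TR.rk K S ≤ (g * g + g : ℕ) :=
  (TR.rk_mono hS).trans G.rk_full.le

end FLTAgent.AbVarTors.GenSys
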