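import Mathlib
import Fermat.Agent.AbVarTors.Fields
import Fermat.Agent.AbVarTors.Exist
import Fermat.Agent.AbVarTors.Disjoint

/-!
# Specialising a generic point to a given point

`AVData.exists_kres_point`: a point generic over an algebraically closed field `k` specialises to
any `k`-point under some residue map fixing `k`. The residue map is prescribed on the coordinate
ring of an affine chart, which is linearly disjoint from `k` (`exists_kres_tensor`), and
`AVData.spec_eq_of_chart` identifies the specialisation.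
-/

set_option autoImplicit false
set_option linter.style.haveILetI false
set_option linter.unusedSectionVars false

universe u

noncomputable section

open TensorProduct

namespace FLTAgent.AbVarTors

variable {K : Type u} [Field K] {k Ω : Type u} [Field k] [Algebra K k] [Field Ω] [Algebra K Ω]
  [Algebra k Ω] [IsScalarTower K k Ω]

/-- A residue map fixing `k` with prescribed residues on a disjoint subring. -/
theorem exists_kres_tensor [IsAlgClosed k] {A : Type u} [CommRing A] [Algebra K A]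
    (ι : A →ₐ[K] Ω)
    (hinj : Function.Injective (Algebra.TensorProduct.lift (Algebra.ofId k Ω) ι fun _ _ => .all _ _))
    (e : A →ₐ[K] k) :
    ∃ R : KRes K Ω k, (∀ b : k, ∃ h : algebraMap k Ω b ∈ R.V, R.π ⟨algebraMap k Ω b, h⟩ = b) ∧
      ∀ a, ∃ h : ι a ∈ R.V, R.π ⟨ι a, h⟩ = e a := by
  let ψ : k ⊗[K] A →ₐ[k] Ω :=
    Algebra.TensorProduct.lift (Algebra.ofId k Ω) ι fun _ _ => .all _ _
  let θ : k ⊗[K] A →ₐ[k] k :=
    Algebra.TensorProduct.lift (AlgHom.id k k) e fun _ _ => .all _ _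
  let φ : ψ.range →ₐ[k] k := θ.comp (AlgEquiv.ofInjective ψ hinj).symm.toAlgHom
  have hφ : ∀ u, φ ⟨ψ u, ⟨u, rfl⟩⟩ = θ u := fun u =>
    congrArg θ ((AlgEquiv.ofInjective ψ hinj).symm_apply_apply u)
  have hB : ∀ a : K, algebraMap K Ω a ∈ ψ.range.toSubring := fun a => by
    rw [IsScalarTower.algebraMap_apply K k Ω]
    exact ψ.range.algebraMap_mem _
  obtain ⟨R, hR, -⟩ := exists_kres ψ.range.toSubring hB φ.toRingHom (fun a => by
      refine Eq.trans (congrArg φ (Subtype.ext ?_ :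
        (⟨algebraMap K Ω a, hB a⟩ : ψ.range) = algebraMap k ψ.range (algebraMap K k a))) ?_
      · exact IsScalarTower.algebraMap_apply K k Ω a
      · exact φ.commutes _)
    fun b => ⟨algebraMap k ψ.range b, φ.commutes b⟩
  refine ⟨R, fun b => ?_, fun a => ?_⟩
  · obtain ⟨h, he⟩ := hR (algebraMap k ψ.range b)
    exact ⟨h, he.trans (φ.commutes b)⟩
  · have e1 : ι a = ψ (1 ⊗ₜ a) := by simp [ψ]
    obtain ⟨h, he⟩ := hR ⟨ψ (1 ⊗ₜ a), ⟨_, rfl⟩⟩
    refine ⟨e1 ▸ h, (R.π_congr (e1 ▸ h) h e1).trans (he.trans ((hφ _).trans ?_))⟩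
    simp [θ]

namespace AVData

variable {g : ℕ} (D : AVData K g)

/-- A residue map fixing `k` fixes the points over `k`. -/
theorem spec_map_of_fix {R : KRes K Ω k}
    (hR : ∀ b : k, ∃ h : algebraMap k Ω b ∈ R.V, R.π ⟨algebraMap k Ω b, h⟩ = b) (P : D.Pt k) :
    D.spec R (D.map (IsScalarTower.toAlgHom K k Ω) P) = P := by
  refine D.spec_eq_of_val _ _ _ (D.loc_map _ P).ge fun x _ => ?_
  obtain ⟨h, he⟩ := hR (D.val P x)
  have h' : D.val (D.map (IsScalarTower.toAlgHom K k Ω) P) x ∈ R.V := by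
    rw [D.val_map]; exact h
  exact ⟨h', (R.π_congr h' h (D.val_map _ P x)).trans he⟩

/-- A generic point specialises to a point with the same residues on a chart. -/
theorem spec_eq_of_chart (R : KRes K Ω k) {σ : D.F →ₐ[K] Ω} {S : Finset D.F} (hS : S ∈ D.charts)
    {Q : D.Pt k} (hQ : ∀ f ∈ S, f ∈ D.loc Q)
    (h : ∀ a ∈ Algebra.adjoin K (S : Set D.F), ∃ hV : σ a ∈ R.V, R.π ⟨σ a, hV⟩ = D.val Q a) :
    D.spec R (D.ofHom σ) = Q := by
  refine D.spec_eq_of_val _ _ _ (by rw [D.loc_ofHom]; exact le_top) fun f hf => ?_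
  obtain ⟨a, ha, s, hs, hsQ, hs0, he⟩ := D.chart_loc Q S hS hQ f hf
  rw [D.val_mem] at hs0
  obtain ⟨ha1, ha2⟩ := h a ha
  obtain ⟨hs1, hs2⟩ := h s hs
  have hinv : (σ s)⁻¹ ∈ R.V := R.inv_mem_of_ne hs1 (by rw [hs2]; exact hs0)
  have hsσ : σ s ≠ 0 := fun h0 => hs0 (by
    rw [← hs2, R.π_congr hs1 R.V.zero_mem h0]; exact map_zero R.π)
  have hfv : D.val (D.ofHom σ) f = σ a * (σ s)⁻¹ := by
    rw [D.val_ofHom, ← he, map_mul, mul_inv_cancel_right₀ hsσ]
  have hV : D.val (D.ofHom σ) f ∈ R.V := hfv ▸ R.V.mul_mem _ _ ha1 hinv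
  refine ⟨hV, mul_right_cancel₀ hs0 ?_⟩
  rw [← D.val_mul Q hf hsQ, he, ← ha2, ← hs2, ← map_mul]
  refine congrArg R.π (Subtype.ext ?_)
  show D.val (D.ofHom σ) f * σ s = σ a
  rw [hfv, inv_mul_cancel_right₀ hsσ]

/-- A point generic over `k` can be specialised to any point over `k`. -/
theorem exists_kres_point [IsAlgClosed K] [IsAlgClosed k] (σ : D.F →ₐ[K] Ω)
    (hσ : (g : Cardinal) ≤ Algebra.trdeg k (IntermediateField.adjoin k (Set.range σ)))
    (Q : D.Pt k) :
    ∃ R : KRes K Ω k, (∀ b : k, ∃ h : algebraMap k Ω b ∈ R.V, R.π ⟨algebraMap k Ω b, h⟩ = b) ∧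
      D.spec R (D.ofHom σ) = Q := by
  obtain ⟨S, hS, hQ⟩ := D.cover Q
  let A := Algebra.adjoin K (S : Set D.F)
  have hA : A ≤ D.loc Q := Algebra.adjoin_le fun f hf => hQ f hf
  have hinj : Function.Injective (Algebra.TensorProduct.lift (Algebra.ofId k Ω) (σ.comp A.val)
      fun _ _ => Commute.all _ _) := by
    have e : Algebra.TensorProduct.lift (Algebra.ofId k Ω) (σ.comp A.val)
        (fun _ _ => Commute.all _ _) =
        (Algebra.TensorProduct.lift (Algebra.ofId k Ω) σ fun _ _ => Commute.all _ _).comp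
          (Algebra.TensorProduct.map (AlgHom.id k k) A.val) := by
      refine Algebra.TensorProduct.ext' fun b a => ?_
      simp
    rw [e, AlgHom.coe_comp]
    exact (tensor_hom_injective_of_trdeg σ D.trdeg_eq hσ).comp
      (Module.Flat.lTensor_preserves_injective_linearMap (M := k) A.val.toLinearMap
        Subtype.val_injective)
  obtain ⟨R, h1, h2⟩ := exists_kres_tensor (σ.comp A.val) hinj
    ((D.ev Q).comp (Subalgebra.inclusion hA))
  refine ⟨R, h1, D.spec_eq_of_chart R hS hQ fun a ha => ?_⟩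
  obtain ⟨hV, he⟩ := h2 ⟨a, ha⟩
  exact ⟨hV, he.trans (D.val_mem Q _)⟩

end AVData

end FLTAgent.AbVarTors
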