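import Mathlib
import Fermat.Agent.AbVarTors.Count.Frame
import Fermat.Agent.AbVarTors.Count.Spec

/-!
# Independence of the values on translates

`GenSys.rk_C_union_range_w_one`: for algebraically independent functions `x i`, the values
`x i (c i + η₀)` are independent over the coordinates of the translating points `c j`.
A residue map sending every `c j` to zero (`GenSys.exists_kres_zero_on`, built one point at a time)
and fixing the coordinates of `η₀` reduces these values to the `x i (η₀)`.
-/

set_option autoImplicit false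
set_option linter.style.haveILetI false
set_option linter.unusedSectionVars false

universe u

noncomputable section

open IntermediateField

namespace FLTAgent.AbVarTors.GenSys

variable {K : Type u} [Field K] [IsAlgClosed K] {g : ℕ} {D : AVData K g} (G : GenSys D)

/-- A residue map on `Ω` sending translating points to zero. -/
theorem exists_kres_zero_on (s : Finset (Fin g)) :
    ∃ R : KRes K G.Ω K, ∀ i ∈ s, D.spec R (G.c i) = 0 := by
  classical
  induction s using Finset.induction_on with
  | empty =>
    obtain ⟨R, -, -⟩ := exists_kres_tensor (k := K) (Ω := G.Ω) (Algebra.ofId K G.Ω)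
      (by
        intro a b hab
        apply (Algebra.TensorProduct.rid K K K).injective
        refine (algebraMap K G.Ω).injective ?_
        have e : ∀ z : TensorProduct K K K, Algebra.TensorProduct.lift (Algebra.ofId K G.Ω)
            (Algebra.ofId K G.Ω) (fun _ _ => Commute.all _ _) z =
              algebraMap K G.Ω (Algebra.TensorProduct.rid K K K z) := by
          intro z
          induction z using TensorProduct.induction_on with
          | zero => simp
          | tmul p q => simp [mul_comm]
          | add p q hp hq => rw [map_add, map_add, map_add, hp, hq]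
        rw [← e, ← e, hab])
      (AlgHom.id K K)
    exact ⟨R, fun i hi => absurd hi (Finset.notMem_empty i)⟩
  | insert i s hi ih =>
    obtain ⟨R, hR⟩ := ih
    set T : Set G.Ω := ⋃ j ∈ s, Set.range (G.σ (some j)) with hT
    set k : IntermediateField K G.Ω := (algebraicClosure (adjoin K T) G.Ω).restrictScalars K
      with hk
    haveI : IsAlgClosed k := TR.isAlgClosed_algebraicClosure (adjoin K T)
    have hTk : TR.rk K (k : Set G.Ω) = (s.card * g : ℕ) := by
      have h := G.rk_union (s.map Function.Embedding.some)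
      rw [Finset.card_map] at h
      rw [show (k : Set G.Ω) = algebraicClosure (adjoin K T) G.Ω from rfl, TR.rk_algebraicClosure,
        hT, ← h]
      congr 1
      ext z
      simp
    have hm : TR.rk K ((k : Set G.Ω) ∪ Set.range (G.σ (some i))) = (s.card * g + g : ℕ) := by
      have h := G.rk_union ((insert i s).map Function.Embedding.some)
      rw [Finset.card_map, Finset.card_insert_of_notMem hi, add_one_mul] at h
      rw [show (k : Set G.Ω) = algebraicClosure (adjoin K T) G.Ω from rfl,
        TR.rk_algebraicClosure_union, hT, ← h]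
      congr 1
      ext z
      simp [or_comm]
    obtain ⟨R₁, hfix, hspec⟩ := D.exists_kres_point (k := k) (G.σ (some i))
      (TR.trdeg_adjoin_eq k _ hTk hm).ge (0 : D.Pt k)
    refine ⟨R₁.comp (R.comap k.val), fun j hj => ?_⟩
    rw [D.spec_comp]
    rcases Finset.mem_insert.mp hj with rfl | hj
    · rw [show G.c j = D.ofHom (G.σ (some j)) from rfl, hspec, map_zero]
    · obtain ⟨P, hP⟩ := D.exists_descend_subfield k (G.c j) (by
        refine Set.Subset.trans (subset_adjoin K _) ?_
        show (D.resField (G.c j) : Set G.Ω) ⊆ k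
        rw [G.resField_c, AlgHom.coe_fieldRange]
        exact fun z hz => (algebraicClosure (adjoin K T) G.Ω).algebraMap_mem
          ⟨z, subset_adjoin K _ (Set.mem_iUnion₂.mpr ⟨j, hj, hz⟩)⟩)
      rw [← hP, show k.val = IsScalarTower.toAlgHom K k G.Ω from rfl, D.spec_map_of_fix hfix,
        show IsScalarTower.toAlgHom K k G.Ω = k.val from rfl, ← D.spec_map', hP, hR j hj]

set_option maxHeartbeats 800000 in
/-- Values of independent functions on the translates are independent over the coordinates of
the translating points. -/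
theorem rk_C_union_range_w_one (x : Fin g → D.F) (hx : AlgebraicIndependent K x) :
    TR.rk K (G.C ∪ Set.range (G.w x 1)) = (g * g + g : ℕ) := by
  classical
  obtain ⟨R, hR⟩ := G.exists_kres_zero_on Finset.univ
  set A₀ : IntermediateField K G.Ω := adjoin K G.C with hA₀
  let R₀ : KRes K A₀ K := R.comap A₀.val
  let Vs : Subalgebra K A₀ := { R₀.V.toSubring with algebraMap_mem' := R₀.mem }
  set S₀ : Set G.Ω := Set.range (G.σ none) with hS₀
  set k : IntermediateField K G.Ω := (algebraicClosure (adjoin K S₀) G.Ω).restrictScalars K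
    with hk
  haveI : IsAlgClosed k := TR.isAlgClosed_algebraicClosure (adjoin K S₀)
  have hk1 : TR.rk K (k : Set G.Ω) = g := (TR.rk_algebraicClosure S₀).trans (G.rk_σ none)
  have hk2 : TR.rk K ((k : Set G.Ω) ∪ Set.range A₀.val) = (g + g * g : ℕ) := by
    rw [show (k : Set G.Ω) = algebraicClosure (adjoin K S₀) G.Ω from rfl,
      TR.rk_algebraicClosure_union, show Set.range A₀.val = (A₀ : Set G.Ω) by
        ext z; exact ⟨fun ⟨a, ha⟩ => ha ▸ a.2, fun hz => ⟨⟨z, hz⟩, rfl⟩⟩,
      Set.union_comm, hA₀, TR.rk_adjoin_union, G.rk_C_union_none, add_comm (g * g) g]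
  have hA₀n : Algebra.trdeg K A₀ = (g * g : ℕ) :=
    TR.trdeg_eq_of_rk (by rw [hA₀, TR.rk_adjoin, G.rk_C])
  let e : Vs →ₐ[K] k :=
    { (algebraMap K k).comp ((R₀.π).comp
        (Vs.val.toRingHom.codRestrict R₀.V.toSubring fun a => a.2)) with
      commutes' := fun a => by
        show algebraMap K k (R₀.π ⟨_, _⟩) = _
        exact congrArg _ (R₀.π_algebraMap' a _) }
  have hinj : Function.Injective (Algebra.TensorProduct.lift (Algebra.ofId k G.Ω)
      (A₀.val.comp Vs.val) fun _ _ => Commute.all _ _) := by
    have e1 : Algebra.TensorProduct.lift (Algebra.ofId k G.Ω) (A₀.val.comp Vs.val)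
        (fun _ _ => Commute.all _ _) =
        (Algebra.TensorProduct.lift (Algebra.ofId k G.Ω) A₀.val fun _ _ => Commute.all _ _).comp
          (Algebra.TensorProduct.map (AlgHom.id k k) Vs.val) := by
      refine Algebra.TensorProduct.ext' fun b a => ?_
      simp
    rw [e1, AlgHom.coe_comp]
    exact (tensor_hom_injective_of_trdeg A₀.val hA₀n (TR.trdeg_adjoin_eq k _ hk1 hk2).ge).comp
      (Module.Flat.lTensor_preserves_injective_linearMap (M := k) Vs.val.toLinearMap
        Subtype.val_injective)
  obtain ⟨R₂, hfix, hres⟩ := exists_kres_tensor (A₀.val.comp Vs.val) hinj e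
  obtain ⟨Pη, hPη⟩ := D.exists_descend_subfield k G.η₀ (by
    refine Set.Subset.trans (subset_adjoin K _) ?_
    show (D.resField G.η₀ : Set G.Ω) ⊆ k
    rw [G.resField_η₀, AlgHom.coe_fieldRange]
    exact fun z hz => (algebraicClosure (adjoin K S₀) G.Ω).algebraMap_mem
      ⟨z, subset_adjoin K _ hz⟩)
  have hlocη : D.loc Pη = ⊤ := by
    rw [← D.loc_map k.val Pη, hPη]; exact D.loc_ofHom _
  have hvalη : ∀ f, k.val (D.val Pη f) = G.σ none f := by
    intro f
    rw [← D.val_ofHom (G.σ none) f]
    show k.val (D.val Pη f) = D.val G.η₀ f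
    rw [← hPη, D.val_map]
  have hc : ∀ i, D.spec R₂ (G.c i) = 0 := by
    intro i
    obtain ⟨P, hP⟩ := D.exists_descend_subfield A₀ (G.c i) (by
      refine Set.Subset.trans (subset_adjoin K _) ?_
      show (D.resField (G.c i) : Set G.Ω) ⊆ A₀
      rw [G.resField_c, AlgHom.coe_fieldRange]
      exact (G.range_σ_subset_C i).trans (subset_adjoin K _))
    have h := hR i (Finset.mem_univ i)
    rw [← hP, D.spec_map'] at h
    rw [← hP, D.spec_map R₂ R₀ A₀.val (Algebra.ofId K k) (fun a ha => ?_) P, h, map_zero]
    obtain ⟨hm, he⟩ := hres ⟨a, ha⟩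
    exact ⟨hm, he⟩
  have hy : ∀ i, ∃ h : G.w x 1 i ∈ R₂.V, R₂.π ⟨G.w x 1 i, h⟩ = D.val Pη (x i) := by
    intro i
    have hs : D.spec R₂ (G.c i + (1 : Fin g → ℤ) i • G.η₀) = Pη := by
      rw [Pi.one_apply, one_smul, map_add, hc, zero_add, ← hPη]
      exact D.spec_map_of_fix hfix Pη
    have h := D.spec_val R₂ (G.c i + (1 : Fin g → ℤ) i • G.η₀) (x := x i)
      (by rw [hs, hlocη]; exact Algebra.mem_top)
    rw [hs] at h
    exact h
  have hindk : AlgebraicIndependent K fun i => D.val Pη (x i) := by
    refine AlgebraicIndependent.of_comp k.val ?_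
    have h := hx.map' (f := G.σ none) (G.σ none).toRingHom.injective
    convert h using 1
    funext i
    exact hvalη (x i)
  have hind : AlgebraicIndependent A₀ (G.w x 1) := by
    rw [algebraicIndependent_iff]
    intro p hp
    by_contra hp0
    obtain ⟨d₀, hd₀, hmax⟩ := p.support.exists_max_image (fun d => R₀.V.valuation (p.coeff d))
      (MvPolynomial.support_nonempty.mpr hp0)
    have hc0 : p.coeff d₀ ≠ 0 := MvPolynomial.mem_support_iff.mp hd₀
    have hcoef : ∀ d, p.coeff d / p.coeff d₀ ∈ R₀.V := by
      intro d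
      rw [← ValuationSubring.valuation_le_one_iff, map_div₀]
      by_cases hd : d ∈ p.support
      · exact (div_le_one₀ ((R₀.V.valuation.pos_iff).mpr hc0)).mpr (hmax d hd)
      · rw [MvPolynomial.notMem_support_iff.mp hd, map_zero, zero_div]
        exact zero_le
    let p' : MvPolynomial (Fin g) Vs :=
      ∑ d ∈ p.support, MvPolynomial.monomial d ⟨p.coeff d / p.coeff d₀, hcoef d⟩
    have hp' : p'.map Vs.val.toRingHom = MvPolynomial.C (p.coeff d₀)⁻¹ * p := by
      rw [congrArg (MvPolynomial.C (p.coeff d₀)⁻¹ * ·) p.as_sum, Finset.mul_sum, map_sum]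
      refine Finset.sum_congr rfl fun d _ => ?_
      rw [MvPolynomial.map_monomial, MvPolynomial.C_mul_monomial]
      exact congrArg (MvPolynomial.monomial d) (div_eq_inv_mul (p.coeff d) (p.coeff d₀))
    let ι₂ : Vs →+* R₂.V :=
      (A₀.val.comp Vs.val).toRingHom.codRestrict R₂.V.toSubring fun a => (hres a).choose
    let Y : Fin g → R₂.V := fun i => ⟨G.w x 1 i, (hy i).choose⟩
    have h0 : MvPolynomial.eval₂ ι₂ Y p' = 0 := by
      refine Subtype.val_injective ?_
      have h1 : (R₂.V.subtype (MvPolynomial.eval₂ ι₂ Y p') : G.Ω) =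
          MvPolynomial.aeval (G.w x 1) (p'.map Vs.val.toRingHom) := by
        rw [MvPolynomial.aeval_def, MvPolynomial.eval₂_map, ← MvPolynomial.coe_eval₂Hom,
          ← RingHom.comp_apply, MvPolynomial.comp_eval₂Hom]
        rfl
      refine h1.trans ?_
      rw [hp', map_mul, hp, mul_zero]
      rfl
    have h2 := congrArg R₂.π h0
    rw [map_zero, ← MvPolynomial.coe_eval₂Hom, ← RingHom.comp_apply,
      MvPolynomial.comp_eval₂Hom] at h2
    let π₀ : Vs →+* K := (R₀.π).comp (Vs.val.toRingHom.codRestrict R₀.V.toSubring fun a => a.2)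
    have h3 : MvPolynomial.aeval (fun i => D.val Pη (x i)) (p'.map π₀) = 0 := by
      rw [MvPolynomial.aeval_def, MvPolynomial.eval₂_map, ← h2]
      refine congr_arg₂ (fun a b => MvPolynomial.eval₂Hom a b p') (RingHom.ext fun a => ?_)
        (funext fun i => ?_)
      · exact (hres a).choose_spec.symm
      · exact (hy i).choose_spec.symm
    have h4 := congrArg (MvPolynomial.coeff d₀) (hindk.eq_zero_of_aeval_eq_zero _ h3)
    rw [MvPolynomial.coeff_map, MvPolynomial.coeff_zero] at h4
    have h5 : p'.coeff d₀ = 1 := by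
      refine Subtype.ext ?_
      have h6 := congrArg (MvPolynomial.coeff d₀) hp'
      rw [MvPolynomial.coeff_map, MvPolynomial.coeff_C_mul, inv_mul_cancel₀ hc0] at h6
      exact h6
    rw [h5, map_one] at h4
    exact one_ne_zero h4
  have hle : TR.rk K (G.C ∪ Set.range (G.w x 1)) ≤ (g * g + g : ℕ) := by
    refine G.rk_le_of_subset_full (Set.union_subset G.C_subset_full ?_)
    rintro _ ⟨i, rfl⟩
    exact G.w_mem_full x 1 i
  obtain ⟨a, ha⟩ := ENat.ne_top_iff_exists.mp (ne_top_of_le_ne_top (ENat.natCast_ne_top _) hle)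
  have hge : g * g ≤ a := by
    have h := TR.rk_mono (K := K) (Set.subset_union_left (s := G.C) (t := Set.range (G.w x 1)))
    rw [G.rk_C, ← ha] at h
    exact_mod_cast h
  obtain ⟨m, rfl⟩ := Nat.exists_eq_add_of_le hge
  have htr := TR.trdeg_adjoin_eq A₀ (Set.range (G.w x 1)) (a := g * g) (m := m)
    (by rw [hA₀, TR.rk_adjoin, G.rk_C]) (by rw [hA₀, TR.rk_adjoin_union, ← ha])
  have hgm : g ≤ m := by
    let y : Fin g → adjoin A₀ (Set.range (G.w x 1)) := fun i =>
      ⟨G.w x 1 i, subset_adjoin A₀ _ ⟨i, rfl⟩⟩
    have hy' : AlgebraicIndependent A₀ y :=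
      AlgebraicIndependent.of_comp (adjoin A₀ (Set.range (G.w x 1))).val hind
    have h := hy'.lift_cardinalMk_le_trdeg
    rw [Cardinal.lift_id', htr, Cardinal.mk_fin, Cardinal.lift_natCast, Nat.cast_le] at h
    exact h
  rw [← ha] at hle ⊢
  rw [Nat.cast_le] at hle
  rw [show m = g by omega]

end FLTAgent.AbVarTors.GenSys
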