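import Mathlib

/-!
# Proportional degrees under an algebraic extension of the constants

`relfinrank_mul_eq`: for transcendental `u`, `u'` in a finitely generated `F'` algebraic over
`E(u)` and `E(u')`, and `M` algebraic over `E`, the ratio of `[F' : E(u)]` and `[F' : E(u')]` is
that of the degrees over `M(u)` and `M(u')`. Both degrees over `M` agree with those over a large
finite level (`exists_stable`), which is linearly disjoint from a simple transcendental extension
(`relfinrank_transcendental`).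
-/

set_option autoImplicit false
set_option linter.style.haveILetI false

universe u v

noncomputable section

open IntermediateField Polynomial

namespace FLTAgent.AbVarTors.Ratio

variable {E : Type u} {Ω : Type v} [Field E] [Field Ω] [Algebra E Ω]

theorem relfinrank_sup_simple (X : IntermediateField E Ω) {a : Ω} (ha : IsIntegral X a) :
    relfinrank X (X ⊔ E⟮a⟯) = (minpoly X a).natDegree := by
  rw [relfinrank_eq_finrank_of_le le_sup_left, ← IntermediateField.adjoin.finrank ha]
  have e : extendScalars (le_sup_left : X ≤ X ⊔ E⟮a⟯) = X⟮a⟯ := by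
    refine restrictScalars_injective E ?_
    rw [extendScalars_restrictScalars, restrictScalars_adjoin]
    refine le_antisymm (sup_le ?_ ?_) ?_
    · exact fun z hz => subset_adjoin E _ (Or.inl hz)
    · exact adjoin.mono E _ _ Set.subset_union_right
    · refine adjoin_le_iff.mpr (Set.union_subset (fun z hz => le_sup_left (a := X) (b := E⟮a⟯) hz) ?_)
      rintro _ rfl
      exact le_sup_right (a := X) (b := E⟮_⟯) (mem_adjoin_simple_self E _)
  rw [e]

/-- The minimal polynomial does not change when all its coefficients lie in the smaller field. -/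
theorem natDegree_minpoly_eq {X Y : IntermediateField E Ω} (h : X ≤ Y) {a : Ω} (ha : IsIntegral Y a)
    (hc : ∀ i, ((minpoly Y a).coeff i : Ω) ∈ X) :
    IsIntegral X a ∧ (minpoly X a).natDegree = (minpoly Y a).natDegree := by
  let j : X →+* Y := (IntermediateField.inclusion h).toRingHom
  have hl : minpoly Y a ∈ lifts j := (lifts_iff_coeff_lifts _).mpr fun i =>
    ⟨⟨_, hc i⟩, Subtype.ext rfl⟩
  obtain ⟨q, hq, hqd, hqm⟩ := lifts_and_degree_eq_and_monic hl (minpoly.monic ha)
  have hcomp : (algebraMap Y Ω).comp j = algebraMap X Ω := RingHom.ext fun _ => rfl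
  have hroot : aeval a q = 0 := by
    have := minpoly.aeval Y a
    rw [← hq, aeval_def, eval₂_map, hcomp] at this
    exact this
  have haX : IsIntegral X a := ⟨q, hqm, hroot⟩
  refine ⟨haX, le_antisymm ?_ ?_⟩
  · rw [natDegree_eq_of_degree_eq hqd.symm]
    exact natDegree_le_natDegree (minpoly.min X a hqm hroot)
  · have h0 : aeval a ((minpoly X a).map j) = 0 := by
      rw [aeval_def, eval₂_map, hcomp]
      exact minpoly.aeval X a
    have := natDegree_le_natDegree (minpoly.min Y a ((minpoly.monic haX).map j) h0)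
    rwa [(minpoly.monic haX).natDegree_map] at this

theorem exists_finite_level (M B : IntermediateField E Ω) (halg : ∀ x ∈ M, IsIntegral E x) {z : Ω}
    (hz : z ∈ M ⊔ B) :
    ∃ E1 : IntermediateField E Ω, E1 ≤ M ∧ FiniteDimensional E E1 ∧ z ∈ E1 ⊔ B := by
  classical
  have hz' : z ∈ adjoin E ((M : Set Ω) ∪ B) := by rwa [← sup_def]
  obtain ⟨s, hs, hzs⟩ := exists_finset_of_mem_adjoin hz'
  refine ⟨adjoin E (↑(s.filter (· ∈ M)) : Set Ω), adjoin_le_iff.mpr fun x hx =>
    (Finset.mem_filter.mp hx).2, ?_, ?_⟩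
  · haveI : Finite (↑(s.filter (· ∈ M)) : Set Ω) := (Finset.finite_toSet _).to_subtype
    exact finiteDimensional_adjoin fun x hx => halg x (Finset.mem_filter.mp hx).2
  · refine adjoin_le_iff.mpr (fun x hx => ?_) hzs
    rcases hs hx with h | h
    · exact le_sup_left (a := adjoin E _) (b := B)
        (subset_adjoin E _ (Finset.mem_filter.mpr ⟨hx, h⟩))
    · exact le_sup_right (b := B) h

theorem exists_finite_level_finset (M B : IntermediateField E Ω) (halg : ∀ x ∈ M, IsIntegral E x)
    (s : Finset Ω) (hs : ∀ z ∈ s, z ∈ M ⊔ B) :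
    ∃ E1 : IntermediateField E Ω, E1 ≤ M ∧ FiniteDimensional E E1 ∧ ∀ z ∈ s, z ∈ E1 ⊔ B := by
  classical
  induction s using Finset.induction_on with
  | empty => exact ⟨⊥, bot_le, inferInstance, fun z hz => absurd hz (Finset.notMem_empty z)⟩
  | insert z s _ ih =>
    obtain ⟨E1, h1, hf1, hm1⟩ := ih fun w hw => hs w (Finset.mem_insert_of_mem hw)
    obtain ⟨E2, h2, hf2, hm2⟩ := exists_finite_level M B halg (hs z (Finset.mem_insert_self z s))
    refine ⟨E1 ⊔ E2, sup_le h1 h2, inferInstance, fun w hw => ?_⟩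
    rcases Finset.mem_insert.mp hw with rfl | hw
    · exact sup_le_sup_right (le_sup_right (a := E1)) B hm2
    · exact sup_le_sup_right (le_sup_left (b := E2)) B (hm1 w hw)

/-- Degrees over a large finite level agree with the degrees over `M`, and are positive. -/
theorem exists_stable (M : IntermediateField E Ω) (halg : ∀ x ∈ M, IsIntegral E x) (t : Finset Ω)
    (B : IntermediateField E Ω) (hint : ∀ a ∈ t, IsIntegral ↥(M ⊔ B) a) :
    ∃ E1 : IntermediateField E Ω, E1 ≤ M ∧ FiniteDimensional E E1 ∧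
      0 < relfinrank (M ⊔ B) (M ⊔ B ⊔ adjoin E (t : Set Ω)) ∧
      ∀ E2, E1 ≤ E2 → E2 ≤ M →
        relfinrank (E2 ⊔ B) (E2 ⊔ B ⊔ adjoin E (t : Set Ω)) =
          relfinrank (M ⊔ B) (M ⊔ B ⊔ adjoin E (t : Set Ω)) := by
  classical
  induction t using Finset.induction_on generalizing B with
  | empty =>
    refine ⟨⊥, bot_le, inferInstance, ?_, fun E2 _ _ => ?_⟩ <;>
      simp [relfinrank_self]
  | insert a t _ ih =>
    have ha := hint a (Finset.mem_insert_self a t)
    obtain ⟨E1, h1, hf1, hpos, hst⟩ := ih (B ⊔ E⟮a⟯) fun b hb => by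
      have hle : M ⊔ B ≤ M ⊔ (B ⊔ E⟮a⟯) := sup_le_sup_left le_sup_left M
      obtain ⟨p, hp, hp0⟩ := hint b (Finset.mem_insert_of_mem hb)
      exact ⟨p.map (IntermediateField.inclusion hle).toRingHom, hp.map _, by
        rw [eval₂_map]; exact hp0⟩
    obtain ⟨E1', h1', hf1', hco⟩ := exists_finite_level_finset M B halg
      ((minpoly ↥(M ⊔ B) a).coeffs.image (fun c : ↥(M ⊔ B) => (c : Ω))) (by
        intro z hz
        obtain ⟨c, -, rfl⟩ := Finset.mem_image.mp hz
        exact c.2)
    have hsplit : ∀ X : IntermediateField E Ω,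
        relfinrank (X ⊔ B) (X ⊔ B ⊔ adjoin E ((insert a t : Finset Ω) : Set Ω)) =
          relfinrank (X ⊔ B) (X ⊔ B ⊔ E⟮a⟯) *
            relfinrank (X ⊔ (B ⊔ E⟮a⟯)) (X ⊔ (B ⊔ E⟮a⟯) ⊔ adjoin E (t : Set Ω)) := by
      intro X
      rw [Finset.coe_insert, Set.insert_eq, adjoin_union, ← sup_assoc X B, ← sup_assoc (X ⊔ B)]
      exact (relfinrank_mul_relfinrank le_sup_left le_sup_left).symm
    refine ⟨E1 ⊔ E1', sup_le h1 h1', inferInstance, ?_, fun E2 hE2 hE2M => ?_⟩
    · rw [hsplit, relfinrank_sup_simple _ ha]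
      exact Nat.mul_pos (minpoly.natDegree_pos ha) hpos
    · rw [hsplit, hsplit, hst E2 (le_sup_left.trans hE2) hE2M, relfinrank_sup_simple _ ha]
      congr 1
      have hc : ∀ i, ((minpoly ↥(M ⊔ B) a).coeff i : Ω) ∈ E2 ⊔ B := by
        intro i
        by_cases h0 : (minpoly ↥(M ⊔ B) a).coeff i = 0
        · rw [h0]; exact zero_mem _
        · exact sup_le_sup_right (le_sup_right.trans hE2) B
            (hco _ (Finset.mem_image_of_mem _ (coeff_mem_coeffs h0)))
      obtain ⟨hi, hd⟩ := natDegree_minpoly_eq (sup_le_sup_right hE2M B) ha hc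
      rw [relfinrank_sup_simple _ hi, hd]

/-- A simple transcendental extension is linearly disjoint from an algebraic extension. -/
theorem relfinrank_transcendental (E1 : IntermediateField E Ω) [FiniteDimensional E E1] {u : Ω}
    (hu : Transcendental E u) : relfinrank E⟮u⟯ (E1 ⊔ E⟮u⟯) = Module.finrank E E1 := by
  classical
  haveI : Algebra.IsAlgebraic E E1 := Algebra.IsAlgebraic.of_finite E E1
  have hu1 : Transcendental E1 u := fun h => hu (h.restrictScalars E)
  have hld : E1.LinearDisjoint ↥(E⟮u⟯) := by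
    refine LinearDisjoint.of_basis_left (Module.finBasis E E1) ?_
    rw [Fintype.linearIndependent_iff]
    intro c hc
    set b := Module.finBasis E E1 with hb
    have hfrac : ∀ j, ∃ r s : E[X], s ≠ 0 ∧ (c j : Ω) * aeval u s = aeval u r := by
      intro j
      obtain ⟨r, s, h⟩ := (mem_adjoin_simple_iff E (c j : Ω)).mp (c j).2
      rcases eq_or_ne (aeval u s) 0 with h0 | h0
      · rw [h0, div_zero] at h
        exact ⟨0, 1, one_ne_zero, by rw [h, zero_mul, map_zero]⟩
      · exact ⟨r, s, fun hs => h0 (by rw [hs, map_zero]), by rw [h, div_mul_cancel₀ _ h0]⟩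
    choose r s hs hrs using hfrac
    set P := fun j => r j * ∏ k ∈ Finset.univ.erase j, s k with hP
    have hP' : ∀ j, aeval u (P j) = (c j : Ω) * aeval u (∏ k, s k) := by
      intro j
      rw [hP, ← Finset.mul_prod_erase Finset.univ s (Finset.mem_univ j), map_mul, map_mul,
        ← mul_assoc, hrs]
    have hsum : aeval u (∑ j, C (b j) * (P j).map (algebraMap E E1)) = 0 := by
      rw [map_sum]
      have e : ∀ j, aeval u (C (b j) * (P j).map (algebraMap E E1)) =
          (c j • (E1.val ∘ b) j) * aeval u (∏ k, s k) := by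
        intro j
        rw [map_mul, aeval_C, aeval_map_algebraMap, hP', Algebra.smul_def, Function.comp_apply]
        show (b j : Ω) * _ = (c j : Ω) * (b j : Ω) * _
        ring
      rw [Finset.sum_congr rfl fun j _ => e j, ← Finset.sum_mul, hc, zero_mul]
    have h0 := transcendental_iff.mp hu1 _ hsum
    intro i
    have hPi : P i = 0 := by
      ext n
      have h1 := congrArg (fun q : (E1)[X] => q.coeff n) h0
      simp only [finsetSum_coeff, coeff_C_mul, coeff_map, coeff_zero] at h1
      have h2 := Fintype.linearIndependent_iff.mp b.linearIndependent (fun j => (P j).coeff n)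
        (by rw [← h1]; exact Finset.sum_congr rfl fun j _ => by rw [Algebra.smul_def, mul_comm]) i
      simpa using h2
    have hri : r i = 0 := by
      simp only [hP, mul_eq_zero, Finset.prod_eq_zero_iff] at hPi
      rcases hPi with h | ⟨k, -, hk⟩
      · exact h
      · exact absurd hk (hs k)
    have h1 := hrs i
    rw [hri, map_zero, mul_eq_zero] at h1
    exact Subtype.ext (h1.resolve_right fun h => hs i (transcendental_iff.mp hu (s i) h))
  rw [relfinrank_eq_finrank_of_le le_sup_right]
  have e : extendScalars (le_sup_right : E⟮u⟯ ≤ E1 ⊔ E⟮u⟯) = adjoin E⟮u⟯ (E1 : Set Ω) := by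
    refine restrictScalars_injective E ?_
    rw [extendScalars_restrictScalars, restrictScalars_adjoin, sup_comm, sup_def]
  rw [e, Module.finrank, hld.adjoin_rank_eq_rank_left_of_isAlgebraic_left, Module.finrank]

/-- Degrees over `E(u)` and `E(u')` are proportional to those over `M(u)` and `M(u')`. -/
theorem relfinrank_mul_eq (F' M : IntermediateField E Ω) (halg : ∀ x ∈ M, IsIntegral E x)
    (t : Finset Ω) (ht : F' = adjoin E (t : Set Ω)) {u u' : Ω} (hu : Transcendental E u)
    (hu' : Transcendental E u') (huF : u ∈ F') (hu'F : u' ∈ F')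
    (hint : ∀ a ∈ t, IsIntegral ↥(E⟮u⟯) a) (hint' : ∀ a ∈ t, IsIntegral ↥(E⟮u'⟯) a) :
    relfinrank E⟮u'⟯ F' * relfinrank (M ⊔ E⟮u⟯) (M ⊔ F') =
        relfinrank E⟮u⟯ F' * relfinrank (M ⊔ E⟮u'⟯) (M ⊔ F') ∧
      0 < relfinrank (M ⊔ E⟮u⟯) (M ⊔ F') := by
  have lift : ∀ w : Ω, (∀ a ∈ t, IsIntegral ↥(E⟮w⟯) a) → ∀ a ∈ t, IsIntegral ↥(M ⊔ E⟮w⟯) a := by
    intro w h a ha
    obtain ⟨p, hp, hp0⟩ := h a ha
    exact ⟨p.map (IntermediateField.inclusion (le_sup_right : E⟮w⟯ ≤ M ⊔ E⟮w⟯)).toRingHom,
      hp.map _, by rw [eval₂_map]; exact hp0⟩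
  obtain ⟨E1, h1, hf1, hp1, hst⟩ := exists_stable M halg t E⟮u⟯ (lift u hint)
  obtain ⟨E1', h1', hf1', -, hst'⟩ := exists_stable M halg t E⟮u'⟯ (lift u' hint')
  set G := E1 ⊔ E1'
  have hsup : ∀ (X : IntermediateField E Ω) (w : Ω), w ∈ F' →
      X ⊔ E⟮w⟯ ⊔ adjoin E (t : Set Ω) = X ⊔ F' := by
    intro X w hw
    rw [← ht, sup_assoc, sup_eq_right.mpr (adjoin_simple_le_iff.mpr hw)]
  have hG : ∀ (w : Ω), w ∈ F' → Transcendental E w →
      relfinrank (G ⊔ E⟮w⟯) (G ⊔ F') = relfinrank (M ⊔ E⟮w⟯) (M ⊔ F') →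
      Module.finrank E G * relfinrank (M ⊔ E⟮w⟯) (M ⊔ F') =
        relfinrank E⟮w⟯ F' * relfinrank F' (G ⊔ F') := by
    intro w hw htr he
    rw [relfinrank_mul_relfinrank (adjoin_simple_le_iff.mpr hw) le_sup_right, ← he,
      ← relfinrank_transcendental G htr,
      relfinrank_mul_relfinrank le_sup_right (sup_le_sup_left (adjoin_simple_le_iff.mpr hw) G)]
  have e1 := hG u huF hu (by
    have := hst G le_sup_left (sup_le h1 h1')
    rwa [hsup G u huF, hsup M u huF] at this)
  have e2 := hG u' hu'F hu' (by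
    have := hst' G le_sup_right (sup_le h1 h1')
    rwa [hsup G u' hu'F, hsup M u' hu'F] at this)
  refine ⟨?_, by rwa [hsup M u huF] at hp1⟩
  have hpos : 0 < Module.finrank E G := Module.finrank_pos
  refine Nat.eq_of_mul_eq_mul_left hpos ?_
  rw [mul_left_comm, e1, mul_left_comm, mul_left_comm (Module.finrank E G), e2]

end FLTAgent.AbVarTors.Ratio
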