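import Mathlib
import Fermat.Agent.AbVarTors.Count.Frame
import Fermat.Agent.AbVarTors.Count.Ratio
import Fermat.Agent.AbVarTors.Height

/-!
# Changing one multiplier

`GenSys.step`: replacing one multiplier `1` by `n` keeps the values `x i (c i + m i η₀)`
independent over the coordinates of the translating points and multiplies the degree by `n ^ 2`.
All but the changed value are taken as constants, so that the field of the moving point becomes a
curve over an algebraically closed field; there the quadratic degree formula applies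
(`AVData.curve_step`), and `Ratio.relfinrank_mul_eq` descends it.
-/

set_option autoImplicit false
set_option linter.style.haveILetI false
set_option linter.unusedSectionVars false

universe u

noncomputable section

open IntermediateField

namespace FLTAgent.AbVarTors

namespace TR

variable {K : Type u} [Field K] {Ω : Type u} [Field Ω] [Algebra K Ω]

/-- Relative transcendence degree over a field mapping to `Ω`. -/
theorem trdeg_adjoin_eq_of_algebra {k : Type u} [Field k] [Algebra K k] [Algebra k Ω]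
    [IsScalarTower K k Ω] (T : Set Ω) {a m : ℕ} (ha : rk K (Set.range (algebraMap k Ω)) = a)
    (hm : rk K (Set.range (algebraMap k Ω) ∪ T) = (a + m : ℕ)) :
    Algebra.trdeg k (adjoin k T) = m := by
  have hk : Algebra.trdeg K k = a := by
    let ι : k →ₐ[K] Ω := IsScalarTower.toAlgHom K k Ω
    let e : k ≃ₐ[K] ι.fieldRange := AlgEquiv.ofInjectiveField ι
    exact e.trdeg_eq.trans (trdeg_eq_of_rk (by rw [AlgHom.coe_fieldRange]; exact ha))
  have h1 : rk K (((adjoin k T).restrictScalars K : IntermediateField K Ω) : Set Ω) = (a + m : ℕ) := by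
    rw [← hm, ← rk_adjoin (Set.range (algebraMap k Ω) ∪ T)]
    congr 1
    refine congrArg SetLike.coe (le_antisymm ?_ ?_)
    · intro z hz
      refine adjoin_induction k (p := fun z _ => z ∈ adjoin K (Set.range (algebraMap k Ω) ∪ T))
        ?_ ?_ ?_ ?_ ?_ hz
      · exact fun w hw => subset_adjoin K _ (Or.inr hw)
      · exact fun c => subset_adjoin K _ (Or.inl ⟨c, rfl⟩)
      · exact fun _ _ _ _ => add_mem
      · exact fun _ _ => inv_mem
      · exact fun _ _ _ _ => mul_mem
    · refine adjoin_le_iff.mpr (Set.union_subset ?_ (subset_adjoin k T))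
      rintro _ ⟨c, rfl⟩
      exact (adjoin k T).algebraMap_mem c
  have e : Algebra.trdeg K ((adjoin k T).restrictScalars K) = (a + m : ℕ) := trdeg_eq_of_rk h1
  have h2 := trdeg_add_eq (R := K) (S := k) (A := (adjoin k T))
  rw [hk, show Algebra.trdeg K (adjoin k T) = (a + m : ℕ) from e, Nat.cast_add] at h2
  exact Cardinal.eq_of_add_eq_add_left h2 Cardinal.natCast_lt_aleph0

theorem isIntegral_of_subset {E : Type u} [Field E] [Algebra E Ω] {X : IntermediateField K Ω}
    {Y : IntermediateField E Ω} (h : ∀ z ∈ X, z ∈ Y) {a : Ω} (ha : IsAlgebraic X a) :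
    IsIntegral Y a := by
  obtain ⟨p, hp, hp0⟩ := ha.isIntegral
  let φ : X →+* Y := X.val.toRingHom.codRestrict Y.toSubfield.toSubring fun z => h z z.2
  exact ⟨p.map φ, hp.map φ, by rw [Polynomial.eval₂_map]; exact hp0⟩

theorem transcendental_algebraicClosure {E : Type u} [Field E] [Algebra E Ω] {z : Ω}
    (hz : z ∉ algebraicClosure E Ω) : Transcendental (algebraicClosure E Ω) z := fun h =>
  hz (mem_algebraicClosure_iff'.mpr (isIntegral_trans (R := E) (A := algebraicClosure E Ω) z h.isIntegral))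

theorem notMem_of_transcendental {E : Type u} [Field E] [Algebra E Ω] {M : IntermediateField E Ω}
    {z : Ω} (hz : Transcendental M z) : z ∉ M := fun h =>
  hz (isAlgebraic_algebraMap (⟨z, h⟩ : M))

theorem mem_algebraicClosure_of_le {X Y : IntermediateField K Ω} (h : X ≤ Y) {z : Ω}
    (hz : z ∈ algebraicClosure X Ω) : z ∈ algebraicClosure Y Ω := by
  letI : Algebra X Y := (IntermediateField.inclusion h).toRingHom.toAlgebra
  haveI : IsScalarTower X Y Ω := IsScalarTower.of_algebraMap_eq fun _ => rfl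
  exact mem_algebraicClosure_iff'.mpr ((mem_algebraicClosure_iff'.mp hz).tower_top)

end TR

theorem AVData.range_ev_ofHom {K : Type u} [Field K] {g : ℕ} (D : AVData K g) {E : Type u}
    [Field E] [Algebra K E] (σ : D.F →ₐ[K] E) : Set.range (D.ev (D.ofHom σ)) = Set.range σ := by
  rw [D.range_ev_eq, D.loc_ofHom, Algebra.coe_top, Set.image_univ]
  exact congrArg Set.range (funext fun f => D.val_ofHom σ f)

namespace AVData

variable {K : Type u} [Field K] [IsAlgClosed K] {g : ℕ} (D : AVData K g) {Ω : Type u} [Field Ω]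
  [Algebra K Ω] {E : Type u} [Field E] [Algebra K E] [Algebra E Ω] [IsScalarTower K E Ω]

set_option synthInstance.maxHeartbeats 100000 in
set_option maxHeartbeats 800000 in
/-- The quadratic degree formula, read inside a large field. -/
theorem curve_step (M : IntermediateField E Ω) [IsAlgClosed M] (k₀ : IntermediateField K Ω)
    [IsAlgClosed k₀] (hkM : ∀ z ∈ k₀, z ∈ M) (σc ση : D.F →ₐ[K] Ω) (hσc : ∀ f, σc f ∈ M) {a b : ℕ}
    (hk : TR.rk K (k₀ : Set Ω) = a) (hkc : TR.rk K ((k₀ : Set Ω) ∪ Set.range σc) = (a + g : ℕ))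
    (hkη : TR.rk K ((k₀ : Set Ω) ∪ Set.range ση) = (a + 1 : ℕ))
    (hM : TR.rk K (M : Set Ω) = b) (hMη : TR.rk K ((M : Set Ω) ∪ Set.range ση) = (b + 1 : ℕ))
    (x : D.F) (hx : D.IsEvenFn x) (n : ℤ) (hn : n ≠ 0) (y z : Ω)
    (hy : D.val (D.ofHom σc + D.ofHom ση) x = y)
    (hz : D.val (D.ofHom σc + n • D.ofHom ση) x = z) (hyM : y ∉ M) :
    z ∉ M ∧ relfinrank (M ⊔ E⟮z⟯) (M ⊔ adjoin E (Set.range ση)) =
      n.natAbs ^ 2 * relfinrank (M ⊔ E⟮y⟯) (M ⊔ adjoin E (Set.range ση)) := by
  haveI : IsScalarTower K M Ω := IsScalarTower.of_algebraMap_eq fun _ => rfl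
  let fM : M →ₐ[K] Ω := IsScalarTower.toAlgHom K M Ω
  let k : IntermediateField K M := k₀.comap fM
  haveI : IsAlgClosed k := by
    let φ : k →+* k₀ := (fM.toRingHom.comp k.val.toRingHom).codRestrict
      k₀.toSubfield.toSubring fun q => q.2
    exact IsAlgClosed.of_ringEquiv k₀ k (RingEquiv.ofBijective φ
      ⟨φ.injective, fun q => ⟨⟨⟨q, hkM q q.2⟩, q.2⟩, rfl⟩⟩).symm
  set L : IntermediateField M Ω := adjoin M (Set.range ση) with hL
  haveI : IsScalarTower K M L := IsScalarTower.of_algebraMap_eq fun _ => rfl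
  haveI : IsScalarTower K L Ω := IsScalarTower.of_algebraMap_eq fun t =>
    IsScalarTower.algebraMap_apply K M Ω t
  let σL : D.F →ₐ[K] L :=
    { ση.toRingHom.codRestrict L.toSubfield.toSubring
        fun f => subset_adjoin M _ ⟨f, rfl⟩ with
      commutes' := fun q => Subtype.ext
        ((ση.commutes q).trans (IsScalarTower.algebraMap_apply K M Ω q)) }
  let f : L →ₐ[K] Ω := IsScalarTower.toAlgHom K L Ω
  let j : M →ₐ[K] L := IsScalarTower.toAlgHom K M L
  have hfj : f.comp j = fM := AlgHom.ext fun _ => rfl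
  have hfσ : f.comp σL = ση := AlgHom.ext fun _ => rfl
  set P : D.Pt L := D.ofHom σL with hP
  have hPη : D.map f P = D.ofHom ση := by
    rw [hP, ofHom, ← D.map_comp, hfσ]
    rfl
  obtain ⟨cM, hcM⟩ := D.exists_descend fM (D.ofHom σc) (by
    rw [D.range_ev_ofHom]
    rintro _ ⟨q, rfl⟩
    exact ⟨⟨σc q, hσc q⟩, rfl⟩)
  have hval : ∀ l : ℤ, f (D.val (D.map j cM + l • P) x) =
      D.val (D.ofHom σc + l • D.ofHom ση) x := by
    intro l
    rw [← D.val_map, map_add, map_zsmul, hPη, ← D.map_comp, hfj, hcM]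
  have hMimg : Set.range (algebraMap M Ω) = (M : Set Ω) := by
    ext q; exact ⟨fun ⟨r, e⟩ => e ▸ r.2, fun hq => ⟨⟨q, hq⟩, rfl⟩⟩
  have hkM' : fM '' Set.range (algebraMap k M) = k₀ := by
    ext q
    constructor
    · rintro ⟨_, ⟨r, rfl⟩, rfl⟩
      exact r.2
    · intro hq
      exact ⟨⟨q, hkM q hq⟩, ⟨⟨⟨q, hkM q hq⟩, hq⟩, rfl⟩, rfl⟩
  have hkL : f '' Set.range (algebraMap k L) = k₀ := by
    ext q
    constructor
    · rintro ⟨_, ⟨r, rfl⟩, rfl⟩
      exact r.2
    · intro hq
      exact ⟨j ⟨q, hkM q hq⟩, ⟨⟨⟨q, hkM q hq⟩, hq⟩, rfl⟩, rfl⟩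
  have hc : Algebra.trdeg k (adjoin k (Set.range (D.ev cM))) = g := by
    refine TR.trdeg_adjoin_eq_of_algebra (K := K) (k := k) (Ω := M) _ (a := a) ?_ ?_
    · rw [← TR.rk_image fM, hkM', hk]
    · rw [← TR.rk_image fM, Set.image_union, hkM', ← D.range_ev_map, hcM, D.range_ev_ofHom, hkc]
  have hPev : f '' Set.range (D.ev P) = Set.range ση := by
    rw [← D.range_ev_map, hPη, D.range_ev_ofHom]
  have hPtr : Algebra.trdeg k (adjoin k (Set.range (D.ev P))) = 1 := by
    have h' := TR.trdeg_adjoin_eq_of_algebra (K := K) (k := k) (Set.range (D.ev P)) (a := a)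
      (m := 1) (by rw [← TR.rk_image f, hkL, hk])
      (by rw [← TR.rk_image f, Set.image_union, hkL, hPev, hkη])
    exact_mod_cast h'
  have hgen : adjoin M (Set.range (D.ev P)) = ⊤ := by
    refine IntermediateField.lift_injective L ?_
    rw [lift_adjoin, lift_top]
    exact congrArg (adjoin M) hPev
  have htr : Algebra.trdeg M L = 1 := by
    have h' := TR.trdeg_adjoin_eq_of_algebra (K := K) (k := M) (Set.range ση)
      (a := b) (m := 1) (by rw [hMimg, hM]) (by rw [hMimg, hMη])
    exact_mod_cast h'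
  haveI : FF.IsFF M L := D.isFF_of_adjoin_ev P hgen htr
  have hyv : f (D.val (D.map j cM + P) x) = y := by
    have h' := hval 1
    rw [one_smul, one_smul] at h'
    exact h'.trans hy
  have hzv : f (D.val (D.map j cM + n • P) x) = z := (hval n).trans hz
  have htrans : ∀ q : Ω, q ∉ M → Transcendental M q := by
    intro q hq hal
    obtain ⟨r, hr⟩ := minpoly.mem_range_of_degree_eq_one M q
      (IsAlgClosed.degree_eq_one_of_irreducible M (minpoly.irreducible hal.isIntegral))
    exact hq (hr ▸ r.2)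
  obtain ⟨hzt, hdeg⟩ := D.finrank_translate_zsmul k cM hc P hPtr hgen x hx n hn
    (fun hal => htrans y hyM (hyv ▸ hal.algHom L.val))
  refine ⟨fun hzM => hzt ((isAlgebraic_algHom_iff L.val L.val.toRingHom.injective).mp ?_), ?_⟩
  · rw [show L.val (D.val (D.map j cM + n • P) x) = z from hzv]
    exact isAlgebraic_algebraMap (⟨z, hzM⟩ : M)
  have hMdeg : ∀ v : L, Module.finrank M⟮v⟯ L =
      relfinrank (M ⊔ E⟮(v : Ω)⟯) (M ⊔ adjoin E (Set.range ση)) := by
    intro v
    rw [← relfinrank_top_right (M⟮v⟯), ← relfinrank_map_map (M⟮v⟯) ⊤ L.val, adjoin_map,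
      Set.image_singleton, ← AlgHom.fieldRange_eq_map, fieldRange_val]
    have e1 : (adjoin M {L.val v}).restrictScalars E = M ⊔ E⟮(v : Ω)⟯ := by
      rw [restrictScalars_adjoin]
      refine le_antisymm (adjoin_le_iff.mpr (Set.union_subset
        (fun q hq => le_sup_left (b := E⟮(v : Ω)⟯) hq) ?_))
        (sup_le (fun q hq => subset_adjoin E _ (Or.inl hq))
          (adjoin.mono E _ _ Set.subset_union_right))
      rintro _ rfl
      exact le_sup_right (a := M) (mem_adjoin_simple_self E _)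
    have e2 : L.restrictScalars E = M ⊔ adjoin E (Set.range ση) := by
      rw [hL, restrictScalars_adjoin]
      refine le_antisymm (adjoin_le_iff.mpr (Set.union_subset
        (fun q hq => le_sup_left (b := adjoin E (Set.range ση)) hq)
        fun q hq => le_sup_right (a := M) (subset_adjoin E _ hq)))
        (sup_le (fun q hq => subset_adjoin E _ (Or.inl hq))
          (adjoin.mono E _ _ Set.subset_union_right))
    rw [← e1, ← e2]
    rfl
  rw [hMdeg, hMdeg, show ((D.val (D.map j cM + n • P) x : L) : Ω) = z from hzv,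
    show ((D.val (D.map j cM + P) x : L) : Ω) = y from hyv] at hdeg
  exact hdeg

end AVData

namespace GenSys

variable {K : Type u} [Field K] [IsAlgClosed K] {g : ℕ} {D : AVData K g} (G : GenSys D)

/-- The field generated by the translating points and the values of a tuple. -/
def tupleField (x : Fin g → D.F) (m : Fin g → ℤ) : IntermediateField K G.Ω :=
  adjoin K (G.C ∪ Set.range (G.w x m))

theorem range_w_eq (x : Fin g → D.F) (m : Fin g → ℤ) (i : Fin g) :
    Set.range (G.w x m) = insert (G.w x m i) (G.w x m '' {i}ᶜ) := by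
  rw [← Set.image_insert_eq, Set.insert_eq, Set.union_compl_self, Set.image_univ]

theorem image_w_subset (x : Fin g → D.F) (m : Fin g → ℤ) (i : Fin g) :
    G.w x m '' {i}ᶜ ⊆ adjoin K (G.Cne i ∪ Set.range (G.σ none)) := by
  rintro _ ⟨j, hj, rfl⟩
  exact G.w_mem x m j
    ((G.range_σ_subset_Cne hj).trans (Set.subset_union_left.trans (subset_adjoin K _)))
    (Set.subset_union_right.trans (subset_adjoin K _))

/-- Ranks around one coordinate of an independent tuple. -/
theorem split_ranks (x : Fin g → D.F) (m : Fin g → ℤ) (i : Fin g)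
    (h : TR.rk K (G.C ∪ Set.range (G.w x m)) = (g * g + g : ℕ)) :
    TR.rk K (G.Cne i ∪ G.w x m '' {i}ᶜ) = (g * g - 1 : ℕ) ∧
      TR.rk K (G.C ∪ G.w x m '' {i}ᶜ) = (g * g + g - 1 : ℕ) ∧
      TR.rk K ((G.Cne i ∪ G.w x m '' {i}ᶜ) ∪ Set.range (G.σ none)) = (g * g : ℕ) ∧
      TR.rk K ((G.C ∪ G.w x m '' {i}ᶜ) ∪ Set.range (G.σ none)) = (g * g + g : ℕ) := by
  classical
  set W := G.w x m '' {i}ᶜ with hW
  have hWcard : TR.rk K W ≤ (g - 1 : ℕ) := by
    refine (TR.rk_le_encard W).trans ((Set.encard_image_le _ _).trans (le_of_eq ?_))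
    rw [← Finset.coe_singleton, ← Finset.coe_compl, Set.encard_coe_eq_coe_finsetCard,
      Finset.card_compl, Fintype.card_fin, Finset.card_singleton]
  have h1 : TR.rk K (G.C ∪ Set.range (G.w x m)) ≤ TR.rk K (G.C ∪ W) + 1 := by
    rw [G.range_w_eq x m i, Set.union_insert]
    exact TR.rk_insert_le _ _
  have h2 : TR.rk K (G.C ∪ W) ≤ TR.rk K (G.Cne i ∪ W) + (g : ℕ) := by
    rw [G.C_eq i, Set.union_right_comm]
    exact (TR.rk_union_le _ _).trans (add_le_add le_rfl (G.rk_σ (some i)).le)
  have h3 : TR.rk K (G.Cne i ∪ W) ≤ ((g - 1) * g + (g - 1) : ℕ) := by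
    rw [Nat.cast_add]
    exact (TR.rk_union_le _ _).trans (add_le_add (G.rk_Cne_le i) hWcard)
  have h4 : TR.rk K ((G.Cne i ∪ W) ∪ Set.range (G.σ none)) ≤ (g * g : ℕ) := by
    refine le_trans (TR.rk_mono ?_) ((TR.rk_adjoin _).le.trans (G.rk_Cne_union_none_le i))
    exact Set.union_subset (Set.union_subset (Set.subset_union_left.trans (subset_adjoin K _))
      (G.image_w_subset x m i)) (Set.subset_union_right.trans (subset_adjoin K _))
  have h5 : TR.rk K ((G.C ∪ W) ∪ Set.range (G.σ none)) ≤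
      TR.rk K ((G.Cne i ∪ W) ∪ Set.range (G.σ none)) + (g : ℕ) := by
    rw [G.C_eq i, Set.union_right_comm (G.Cne i), Set.union_right_comm _ (Set.range (G.σ (some i)))]
    exact (TR.rk_union_le _ _).trans (add_le_add le_rfl (G.rk_σ (some i)).le)
  have h6 : ((g * g + g : ℕ) : ℕ∞) ≤ TR.rk K ((G.C ∪ W) ∪ Set.range (G.σ none)) := by
    rw [← G.rk_C_union_none]
    exact TR.rk_mono (Set.union_subset_union_left _ Set.subset_union_left)
  obtain ⟨a, ha⟩ := ENat.ne_top_iff_exists.mp (ne_top_of_le_ne_top (ENat.natCast_ne_top _) h3)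
  obtain ⟨b, hb⟩ := ENat.ne_top_iff_exists.mp (ne_top_of_le_ne_top
    (by rw [← ha]; exact_mod_cast ENat.natCast_ne_top (a + g)) h2)
  obtain ⟨c, hc⟩ := ENat.ne_top_iff_exists.mp (ne_top_of_le_ne_top (ENat.natCast_ne_top _) h4)
  obtain ⟨e, he⟩ := ENat.ne_top_iff_exists.mp (ne_top_of_le_ne_top
    (by rw [← hc]; exact_mod_cast ENat.natCast_ne_top (c + g)) h5)
  rw [h, ← hb] at h1
  rw [← ha, ← hb] at h2
  rw [← ha] at h3
  rw [← hc] at h4
  rw [← hc, ← he] at h5
  rw [← he] at h6
  norm_cast at h1 h2 h3 h4 h5 h6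
  have hg : 1 ≤ g := i.pos
  have hgg : (g - 1) * g + g = g * g := by
    rw [← Nat.add_one_mul, Nat.sub_add_cancel hg]
  rw [← ha, ← hb, ← hc, ← he]
  norm_cast
  omega

theorem exists_gens : ∃ t : Finset G.Ω, adjoin K (t : Set G.Ω) = (G.σ none).fieldRange := by
  classical
  obtain ⟨s, hs⟩ := D.fg
  refine ⟨s.image (G.σ none), ?_⟩
  rw [Finset.coe_image, ← adjoin_map, hs, AlgHom.fieldRange_eq_map]

set_option maxHeartbeats 1600000 in
set_option synthInstance.maxHeartbeats 400000 in
/-- One step from the translate of the moving point to the translate of its multiple. -/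
theorem step (x : Fin g → D.F) (hx : ∀ i, D.IsEvenFn (x i)) (m : Fin g → ℤ) (i : Fin g)
    (hm : m i = 1) (n : ℤ) (hn : n ≠ 0)
    (h : TR.rk K (G.C ∪ Set.range (G.w x m)) = (g * g + g : ℕ)) :
    TR.rk K (G.C ∪ Set.range (G.w x (Function.update m i n))) = (g * g + g : ℕ) ∧
      relfinrank (G.tupleField x (Function.update m i n)) G.full =
        n.natAbs ^ 2 * relfinrank (G.tupleField x m) G.full := by
  classical
  obtain ⟨hA, hB, hAη, hBη⟩ := G.split_ranks x m i h
  set W : Set G.Ω := G.w x m '' {i}ᶜ with hW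
  have hg : 1 ≤ g := i.pos
  have hgg : 1 ≤ g * g := Nat.le_mul_self g |>.trans' hg
  set E : IntermediateField K G.Ω := adjoin K (G.C ∪ W) with hE
  set M : IntermediateField E G.Ω := algebraicClosure E G.Ω with hM
  haveI : IsAlgClosed M := TR.isAlgClosed_algebraicClosure E
  haveI : IsScalarTower K M G.Ω := IsScalarTower.of_algebraMap_eq fun _ => rfl
  set k₀ : IntermediateField K G.Ω :=
    (algebraicClosure (adjoin K (G.Cne i ∪ W)) G.Ω).restrictScalars K with hk₀
  have hk₀M : ∀ z ∈ k₀, z ∈ M := fun z hz => TR.mem_algebraicClosure_of_le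
    (adjoin.mono K _ _ (Set.union_subset_union_left _ (G.Cne_subset_C i))) hz
  haveI : IsAlgClosed k₀ := TR.isAlgClosed_algebraicClosure (adjoin K (G.Cne i ∪ W))
  set y := G.w x m i with hy
  set z := G.w x (Function.update m i n) i with hz
  have hMrk : TR.rk K (M : Set G.Ω) = (g * g + g - 1 : ℕ) :=
    (TR.rk_algebraicClosure (G.C ∪ W)).trans hB
  have hyM : y ∉ M := by
    intro hyM
    have h' : TR.rk K (G.C ∪ Set.range (G.w x m)) ≤ TR.rk K (M : Set G.Ω) := by
      refine TR.rk_mono ?_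
      rw [G.range_w_eq x m i, Set.union_insert]
      exact Set.insert_subset hyM fun q hq => M.algebraMap_mem ⟨q, subset_adjoin K _ hq⟩
    rw [h, hMrk, Nat.cast_le] at h'
    omega
  obtain ⟨hzM, hdeg⟩ := D.curve_step M k₀ hk₀M (G.σ (some i)) (G.σ none)
    (fun q => M.algebraMap_mem ⟨G.σ (some i) q,
      subset_adjoin K _ (Or.inl (G.range_σ_subset_C i ⟨q, rfl⟩))⟩)
    (a := g * g - 1) (b := g * g + g - 1)
    ((TR.rk_algebraicClosure _).trans hA)
    ((TR.rk_algebraicClosure_union _ _).trans (by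
      rw [Set.union_right_comm, ← G.C_eq i, hB]; congr 1; omega))
    ((TR.rk_algebraicClosure_union _ _).trans (by rw [hAη, Nat.sub_add_cancel hgg]))
    hMrk
    ((TR.rk_algebraicClosure_union _ _).trans (by
      rw [hBη, Nat.sub_add_cancel (by omega : 1 ≤ g * g + g)]))
    (x i) (hx i) n hn y z
    (by rw [hy, GenSys.w, hm, one_smul]; rfl)
    (by rw [hz, GenSys.w, Function.update_self]; rfl) hyM
  have hW' : G.w x (Function.update m i n) '' {i}ᶜ = W := by
    refine Set.image_congr fun l (hl : l ≠ i) => ?_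
    rw [GenSys.w, GenSys.w, Function.update_of_ne hl]
  have hzrk : TR.rk K (G.C ∪ Set.range (G.w x (Function.update m i n))) = (g * g + g : ℕ) := by
    rw [G.range_w_eq x _ i, hW', Set.union_insert, TR.rk_insert_of_notMem hzM, hB]
    norm_cast
    omega
  refine ⟨hzrk, ?_⟩
  -- degrees
  obtain ⟨t, ht⟩ := G.exists_gens
  set F' : IntermediateField E G.Ω := adjoin E (Set.range (G.σ none)) with hF'
  have hF'full : F'.restrictScalars K = G.full := by
    rw [hF', hE, adjoin_adjoin_left]
    refine le_antisymm (adjoin_le_iff.mpr (Set.union_subset (Set.union_subset G.C_subset_full ?_)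
      G.range_none_subset_full))
      (adjoin.mono K _ _ (Set.union_subset_union_left _ Set.subset_union_left))
    rintro _ ⟨l, -, rfl⟩
    exact G.w_mem_full x m l
  have htE : F' = adjoin E (t : Set G.Ω) := by
    refine le_antisymm (adjoin_le_iff.mpr ?_) (adjoin.mono E _ _ fun a ha => ?_)
    · intro a ha
      have h' : a ∈ adjoin K (t : Set G.Ω) := by rw [ht]; exact ha
      exact (adjoin_le_iff (T := (adjoin E (t : Set G.Ω)).restrictScalars K)).mpr
        (subset_adjoin E _) h'
    · have h' : a ∈ (G.σ none).fieldRange := ht ▸ subset_adjoin K _ ha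
      exact h'
  have field_eq : ∀ m' : Fin g → ℤ, G.w x m' '' {i}ᶜ = W →
      (E⟮G.w x m' i⟯).restrictScalars K = G.tupleField x m' := by
    intro m' hm'
    rw [hE, adjoin_adjoin_left, tupleField, G.range_w_eq x m' i, hm', Set.union_singleton,
      Set.union_insert]
  have hint : ∀ m' : Fin g → ℤ, G.w x m' '' {i}ᶜ = W →
      TR.rk K (G.C ∪ Set.range (G.w x m')) = (g * g + g : ℕ) →
      ∀ a ∈ t, IsIntegral ↥(E⟮G.w x m' i⟯) a := by
    intro m' hm' hr a ha
    refine TR.isIntegral_of_subset (X := G.tupleField x m')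
      (fun w hw => by rwa [← field_eq m' hm'] at hw) (TR.isAlgebraic_of_rk_le hr ?_)
    refine G.rk_le_of_subset_full (Set.insert_subset ?_ (Set.union_subset G.C_subset_full ?_))
    · exact G.range_none_subset_full (by
        have h' : a ∈ (G.σ none).fieldRange := ht ▸ subset_adjoin K _ ha
        exact h')
    · rintro _ ⟨l, rfl⟩; exact G.w_mem_full x m' l
  have hmem : ∀ m' : Fin g → ℤ, G.w x m' i ∈ F' := fun m' => by
    have h' : G.w x m' i ∈ F'.restrictScalars K := hF'full ▸ G.w_mem_full x m' i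
    exact h'
  have trans : ∀ w : G.Ω, w ∉ M → Transcendental E w := fun w hw hal =>
    hw (mem_algebraicClosure_iff.mpr hal)
  obtain ⟨hmul, hpos⟩ := Ratio.relfinrank_mul_eq F' M (fun a ha => mem_algebraicClosure_iff'.mp ha)
    t htE (trans y hyM) (trans z hzM) (hmem m) (hmem (Function.update m i n)) (hint m rfl h)
    (hint _ hW' hzrk)
  rw [hdeg] at hmul
  have hd : relfinrank E⟮z⟯ F' = n.natAbs ^ 2 * relfinrank E⟮y⟯ F' :=
    Nat.eq_of_mul_eq_mul_right hpos (by rw [hmul]; ring)
  rw [← field_eq m rfl, ← field_eq _ hW', ← hF'full]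
  exact hd

end GenSys

end FLTAgent.AbVarTors
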