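import Mathlib
import Fermat.Agent.AbVarTors.Count.Step
import Fermat.Agent.AbVarTors.Count.Indep
import Fermat.Agent.AbVarTors.Disjoint

/-!
# The degree of multiplication by `n` among generic points

`GenSys.degree_update` changes the multipliers of the `g` translates from `1` to `n` one at a time
(`GenSys.step`), so that the degree of the field of all coordinates over the field of the values
`x i (c i + n η₀)` grows by `|n| ^ (2 * g)`.
`GenSys.degree_zsmul` deduces that `n η₀` is generic and that its field has index `|n| ^ (2 * g)`: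
a transport of the moving point to `n η₀` (`GenSys.exists_transport`, from `exists_comparison`)
identifies the two towers of fields, and the common factor is cancelled.
-/

set_option autoImplicit false
set_option linter.style.haveILetI false
set_option linter.unusedSectionVars false

universe u

noncomputable section

open IntermediateField TensorProduct

namespace FLTAgent.AbVarTors

variable {K : Type u} [Field K] {Ω : Type u} [Field Ω] [Algebra K Ω]

/-- Two embeddings of a domain differ by an embedding of the field generated by the first. -/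
theorem exists_adjoin_comparison {R : Type u} [CommRing R] [IsDomain R] [Algebra K R]
    (g₀ g₁ : R →ₐ[K] Ω) (h₀ : Function.Injective g₀) (h₁ : Function.Injective g₁) :
    ∃ Φ : adjoin K (Set.range g₀) →ₐ[K] Ω,
      ∀ r, Φ ⟨g₀ r, subset_adjoin K _ ⟨r, rfl⟩⟩ = g₁ r := by
  let Θ₀ : FractionRing R →ₐ[K] Ω := IsFractionRing.liftAlgHom (K := FractionRing R) h₀
  let Θ₁ : FractionRing R →ₐ[K] Ω := IsFractionRing.liftAlgHom (K := FractionRing R) h₁
  have e0 : ∀ r : R, Θ₀ (algebraMap R _ r) = g₀ r := fun r => IsFractionRing.lift_algebraMap h₀ r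
  have e1 : ∀ r : R, Θ₁ (algebraMap R _ r) = g₁ r := fun r => IsFractionRing.lift_algebraMap h₁ r
  have hle : adjoin K (Set.range g₀) ≤ Θ₀.fieldRange :=
    adjoin_le_iff.mpr (by rintro _ ⟨r, rfl⟩; exact ⟨_, e0 r⟩)
  let e : FractionRing R ≃ₐ[K] Θ₀.fieldRange := AlgEquiv.ofInjectiveField Θ₀
  refine ⟨Θ₁.comp (e.symm.toAlgHom.comp (IntermediateField.inclusion hle)), fun r => ?_⟩
  have h2 : e (algebraMap R _ r) =
      IntermediateField.inclusion hle ⟨g₀ r, subset_adjoin K _ ⟨r, rfl⟩⟩ := Subtype.ext (e0 r)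
  show Θ₁ (e.symm (IntermediateField.inclusion hle _)) = _
  rw [← h2, e.symm_apply_apply, e1]

/-- Two generic embeddings over `A` differ by an embedding fixing `A`. -/
theorem exists_comparison [IsAlgClosed K] {A B : Type u} [Field A] [Algebra K A] [Field B]
    [Algebra K B] [Algebra A Ω] [IsScalarTower K A Ω] (s t : B →ₐ[K] Ω)
    (h₀ : Function.Injective (Algebra.TensorProduct.lift (Algebra.ofId A Ω) s
      fun _ _ => Commute.all _ _))
    (h₁ : Function.Injective (Algebra.TensorProduct.lift (Algebra.ofId A Ω) t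
      fun _ _ => Commute.all _ _))
    (X : IntermediateField K Ω) (hX : X ≤ adjoin K (Set.range (algebraMap A Ω) ∪ Set.range s)) :
    ∃ Φ : X →ₐ[K] Ω, (∀ (a : A) (h : algebraMap A Ω a ∈ X), Φ ⟨_, h⟩ = algebraMap A Ω a) ∧
      ∀ (b : B) (h : s b ∈ X), Φ ⟨_, h⟩ = t b := by
  haveI := isDomain_tensorProduct (K := K) A B
  let ψ : (B →ₐ[K] Ω) → (A ⊗[K] B →ₐ[K] Ω) := fun u =>
    Algebra.TensorProduct.lift (IsScalarTower.toAlgHom K A Ω) u fun _ _ => Commute.all _ _
  have hA : ∀ (u : B →ₐ[K] Ω) (a : A), ψ u (a ⊗ₜ[K] (1 : B)) = algebraMap A Ω a := fun u a =>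
    (Algebra.TensorProduct.lift_tmul _ _ _ a 1).trans (by rw [map_one, mul_one]; rfl)
  have hB : ∀ (u : B →ₐ[K] Ω) (b : B), ψ u ((1 : A) ⊗ₜ[K] b) = u b := fun u b =>
    (Algebra.TensorProduct.lift_tmul _ _ _ 1 b).trans (by rw [map_one, one_mul])
  have hψ : ∀ (u : B →ₐ[K] Ω), Function.Injective (Algebra.TensorProduct.lift (Algebra.ofId A Ω) u
      fun _ _ => Commute.all _ _) → Function.Injective (ψ u) := by
    intro u hu
    have e : ∀ z, ψ u z =
        Algebra.TensorProduct.lift (Algebra.ofId A Ω) u (fun _ _ => Commute.all _ _) z := by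
      intro z
      induction z using TensorProduct.induction_on with
      | zero => rw [map_zero, map_zero]
      | tmul a b =>
        rw [Algebra.TensorProduct.lift_tmul (Algebra.ofId A Ω) u (fun _ _ => Commute.all _ _) a b,
          show ψ u (a ⊗ₜ[K] b) = IsScalarTower.toAlgHom K A Ω a * u b from
            Algebra.TensorProduct.lift_tmul _ _ (fun _ _ => Commute.all _ _) a b]
        rfl
      | add p q hp hq => rw [map_add, map_add, hp, hq]
    exact fun p q h => hu ((e p).symm.trans (h.trans (e q)))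
  obtain ⟨Φ, hΦ⟩ := exists_adjoin_comparison (ψ s) (ψ t) (hψ s h₀) (hψ t h₁)
  have hle : X ≤ adjoin K (Set.range (ψ s)) := hX.trans (adjoin.mono K _ _ (Set.union_subset
    (by rintro _ ⟨a, rfl⟩; exact ⟨_, hA s a⟩) (by rintro _ ⟨b, rfl⟩; exact ⟨_, hB s b⟩)))
  refine ⟨Φ.comp (IntermediateField.inclusion hle), fun a h => ?_, fun b h => ?_⟩
  · refine Eq.trans ?_ ((hΦ (a ⊗ₜ 1)).trans (hA t a))
    exact congrArg Φ (Subtype.ext (hA s a).symm)
  · refine Eq.trans ?_ ((hΦ (1 ⊗ₜ b)).trans (hB t b))
    exact congrArg Φ (Subtype.ext (hB s b).symm)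

end FLTAgent.AbVarTors

namespace FLTAgent.AbVarTors.GenSys

variable {K : Type u} [Field K] [IsAlgClosed K] {g : ℕ} {D : AVData K g} (G : GenSys D)

/-- A point generic over the translating points is linearly disjoint from their field. -/
theorem injective_lift_of_rk {τ : D.F →ₐ[K] G.Ω}
    (h : TR.rk K (G.C ∪ Set.range τ) = (g * g + g : ℕ)) :
    Function.Injective (Algebra.TensorProduct.lift (Algebra.ofId (adjoin K G.C) G.Ω) τ
      fun _ _ => Commute.all _ _) :=
  tensor_hom_injective_of_trdeg τ D.trdeg_eq (TR.trdeg_adjoin_eq (adjoin K G.C) _ (a := g * g)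
    (by rw [TR.rk_adjoin, G.rk_C]) (by rw [TR.rk_adjoin_union, h])).ge

/-- The moving point can be moved to any point generic over the translating points. -/
theorem exists_transport {τ : D.F →ₐ[K] G.Ω}
    (h : TR.rk K (G.C ∪ Set.range τ) = (g * g + g : ℕ)) :
    ∃ Φ : G.full →ₐ[K] G.Ω, (∀ z : G.full, (z : G.Ω) ∈ G.C → Φ z = z) ∧
      ∀ f, Φ ⟨G.σ none f, G.range_none_subset_full ⟨f, rfl⟩⟩ = τ f := by
  obtain ⟨Φ, hC, hη⟩ := exists_comparison (A := adjoin K G.C) (G.σ none) τ
    (G.injective_lift_of_rk G.rk_C_union_none) (G.injective_lift_of_rk h) G.full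
    (adjoin.mono K _ _ (Set.union_subset_union_left _ fun z hz =>
      ⟨⟨z, subset_adjoin K _ hz⟩, rfl⟩))
  exact ⟨Φ, fun z hz => hC ⟨z, subset_adjoin K _ hz⟩ z.2, fun f => hη f _⟩

/-- Transport maps a point defined over `full` with coordinates among `C` to itself. -/
theorem map_transport_c {Φ : G.full →ₐ[K] G.Ω}
    (hΦ : ∀ z : G.full, (z : G.Ω) ∈ G.C → Φ z = z) {i : Fin g} {P : D.Pt G.full}
    (hP : D.map G.full.val P = G.c i) : D.map Φ P = G.c i := by
  have hl : D.loc P = ⊤ := by
    rw [← D.loc_map G.full.val P, hP]; exact D.loc_ofHom _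
  refine D.ext_val (by rw [D.loc_map, hl]; exact (D.loc_ofHom _).symm) fun f _ => ?_
  have hv : ((D.val P f : G.full) : G.Ω) = D.val (G.c i) f := by
    rw [← hP, D.val_map]
    rfl
  rw [D.val_map, hΦ _ ?_, hv]
  rw [hv, show D.val (G.c i) f = G.σ (some i) f from D.val_ofHom _ f]
  exact G.range_σ_subset_C i ⟨f, rfl⟩

theorem map_transport_η {τ : D.F →ₐ[K] G.Ω} {Φ : G.full →ₐ[K] G.Ω}
    (hΦ : ∀ f, Φ ⟨G.σ none f, G.range_none_subset_full ⟨f, rfl⟩⟩ = τ f) {P : D.Pt G.full}
    (hP : D.map G.full.val P = G.η₀) : D.map Φ P = D.ofHom τ := by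
  have hl : D.loc P = ⊤ := by
    rw [← D.loc_map G.full.val P, hP]; exact D.loc_ofHom _
  refine D.ext_val (by rw [D.loc_map, hl, D.loc_ofHom]) fun f _ => ?_
  rw [D.val_map, D.val_ofHom, ← hΦ f]
  refine congrArg Φ (Subtype.ext ?_)
  show G.full.val (D.val P f) = _
  rw [← D.val_map, hP]
  exact D.val_ofHom _ f

theorem exists_point_c (i : Fin g) : ∃ P : D.Pt G.full, D.map G.full.val P = G.c i :=
  D.exists_descend_subfield G.full (G.c i) (by
    rw [show G.c i = D.ofHom (G.σ (some i)) from rfl, D.range_ev_ofHom]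
    exact (G.range_σ_subset_C i).trans G.C_subset_full)

theorem exists_point_η : ∃ P : D.Pt G.full, D.map G.full.val P = G.η₀ :=
  D.exists_descend_subfield G.full G.η₀ (by
    rw [show G.η₀ = D.ofHom (G.σ none) from rfl, D.range_ev_ofHom]
    exact G.range_none_subset_full)

theorem full_gens : ∃ t : Finset G.Ω, (t : Set G.Ω) ⊆ G.full ∧
    G.full = adjoin K (G.C ∪ t) := by
  obtain ⟨t, ht⟩ := G.exists_gens
  have hts : (t : Set G.Ω) ⊆ Set.range (G.σ none) := by
    rw [← AlgHom.coe_fieldRange, ← ht]; exact subset_adjoin K _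
  refine ⟨t, hts.trans G.range_none_subset_full, le_antisymm (adjoin_le_iff.mpr
    (Set.union_subset (Set.subset_union_left.trans (subset_adjoin K _)) ?_))
    (adjoin.mono K _ _ (Set.union_subset_union_right _ hts))⟩
  rw [← AlgHom.coe_fieldRange, ← ht]
  exact fun z hz => adjoin.mono K _ _ Set.subset_union_right hz

/-- A subfield of full rank containing the translating points has finite index. -/
theorem finiteDimensional_extendScalars {X : IntermediateField K G.Ω} (hX : X ≤ G.full)
    (hC : G.C ⊆ X) (hrk : TR.rk K (X : Set G.Ω) = (g * g + g : ℕ)) :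
    FiniteDimensional X (extendScalars hX) := by
  obtain ⟨t, htf, ht⟩ := G.full_gens
  have e : extendScalars hX = adjoin X (t : Set G.Ω) := by
    refine restrictScalars_injective K ?_
    rw [extendScalars_restrictScalars, restrictScalars_adjoin]
    refine le_antisymm (ht.trans_le (adjoin.mono K _ _ (Set.union_subset_union_left _ hC)))
      (adjoin_le_iff.mpr (Set.union_subset hX htf))
  rw [e]
  haveI : Finite (t : Set G.Ω) := (Finset.finite_toSet t).to_subtype
  refine finiteDimensional_adjoin fun z hz => ?_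
  refine TR.isIntegral_of_subset (X := adjoin K (X : Set G.Ω)) (fun w hw => ?_)
    (TR.isAlgebraic_of_rk_le hrk (G.rk_le_of_subset_full (Set.insert_subset (htf hz) hX)))
  exact adjoin_le_iff.mpr (Set.Subset.refl _) hw

theorem relfinrank_pos {X : IntermediateField K G.Ω} (hX : X ≤ G.full)
    (hC : G.C ⊆ X) (hrk : TR.rk K (X : Set G.Ω) = (g * g + g : ℕ)) :
    0 < relfinrank X G.full := by
  haveI := G.finiteDimensional_extendScalars hX hC hrk
  rw [relfinrank_eq_finrank_of_le hX]
  exact Module.finrank_pos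

theorem tupleField_le_full (x : Fin g → D.F) (m : Fin g → ℤ) : G.tupleField x m ≤ G.full :=
  adjoin_le_iff.mpr (Set.union_subset G.C_subset_full
    (by rintro _ ⟨i, rfl⟩; exact G.w_mem_full x m i))

/-- Replacing all multipliers `1` by `n` multiplies the degree by `|n| ^ (2 * g)`. -/
theorem degree_update (x : Fin g → D.F) (hxe : ∀ i, D.IsEvenFn (x i))
    (hxi : AlgebraicIndependent K x) (n : ℤ) (hn : n ≠ 0) :
    TR.rk K (G.C ∪ Set.range (G.w x fun _ => n)) = (g * g + g : ℕ) ∧
      relfinrank (G.tupleField x fun _ => n) G.full =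
        n.natAbs ^ (2 * g) * relfinrank (G.tupleField x 1) G.full := by
  classical
  have key : ∀ s : Finset (Fin g),
      TR.rk K (G.C ∪ Set.range (G.w x fun i => if i ∈ s then n else 1)) = (g * g + g : ℕ) ∧
      relfinrank (G.tupleField x fun i => if i ∈ s then n else 1) G.full =
        n.natAbs ^ (2 * s.card) * relfinrank (G.tupleField x 1) G.full := by
    intro s
    induction s using Finset.induction_on with
    | empty =>
      simp only [Finset.notMem_empty, if_false, Finset.card_empty, mul_zero, pow_zero, one_mul]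
      exact ⟨G.rk_C_union_range_w_one x hxi, rfl⟩
    | insert i s hi ih =>
      have e : (fun l => if l ∈ insert i s then n else 1) =
          Function.update (fun l => if l ∈ s then n else 1) i n := by
        funext l
        rcases eq_or_ne l i with rfl | hl
        · simp
        · simp [hl]
      obtain ⟨h1, h2⟩ := G.step x hxe (fun l => if l ∈ s then n else 1) i (if_neg hi) n hn ih.1
      rw [e]
      refine ⟨h1, ?_⟩
      rw [h2, ih.2, Finset.card_insert_of_notMem hi]
      ring
  obtain ⟨h1, h2⟩ := key Finset.univ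
  simp only [Finset.mem_univ, if_true, Finset.card_fin] at h1 h2
  exact ⟨h1, h2⟩

set_option maxHeartbeats 800000 in
/-- The multiple of the generic point is generic and has degree `n ^ (2g)`. -/
theorem degree_zsmul (n : ℤ) (hn : n ≠ 0) :
    ∃ hl : D.loc (n • G.η₀) = ⊤,
      TR.rk K (G.C ∪ Set.range (D.genHom _ hl)) = (g * g + g : ℕ) ∧
      relfinrank (adjoin K (G.C ∪ Set.range (D.genHom _ hl))) G.full = n.natAbs ^ (2 * g) := by
  classical
  obtain ⟨x, hxi, hxe⟩ := D.exists_even_algebraicIndependent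
  obtain ⟨hrk, hdeg⟩ := G.degree_update x hxe hxi n hn
  set B : IntermediateField K G.Ω := adjoin K G.C ⊔ D.resField (n • G.η₀) with hB
  have hwB : ∀ i, G.w x (fun _ => n) i ∈ B := fun i => by
    have h := D.resField_add_le (G.c i) (n • G.η₀) (D.val_mem_resField _ (x i))
    refine (sup_le ?_ le_sup_right : D.resField (G.c i) ⊔ D.resField (n • G.η₀) ≤ B) h
    rw [G.resField_c]
    refine le_trans ?_ le_sup_left
    intro z hz
    exact subset_adjoin K _ (G.range_σ_subset_C i hz)
  have hCres : ((g * g + g : ℕ) : ℕ∞) ≤ TR.rk K (G.C ∪ (D.resField (n • G.η₀) : Set G.Ω)) := by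
    rw [← hrk, ← TR.rk_adjoin (G.C ∪ (D.resField (n • G.η₀) : Set G.Ω)), adjoin_union,
      adjoin_self, ← hB]
    refine TR.rk_mono (Set.union_subset ?_ ?_)
    · exact fun z hz => (le_sup_left : adjoin K G.C ≤ B) (subset_adjoin K _ hz)
    · rintro _ ⟨i, rfl⟩; exact hwB i
  have hge : (g : ℕ∞) ≤ TR.rk K (D.resField (n • G.η₀) : Set G.Ω) := by
    have h := hCres.trans (TR.rk_union_le _ _)
    rw [G.rk_C, Nat.cast_add] at h
    exact (ENat.add_le_add_iff_left (ENat.natCast_ne_top _)).mp h
  have hl : D.loc (n • G.η₀) = ⊤ := D.loc_eq_top_of_rk hge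
  refine ⟨hl, ?_⟩
  set σn := D.genHom _ hl with hσn
  have hres : (D.resField (n • G.η₀) : Set G.Ω) = Set.range σn := by
    rw [D.resField_eq_fieldRange _ hl, AlgHom.coe_fieldRange]
  have hnfull : Set.range σn ⊆ G.full := by
    rw [← hres]
    refine fun z hz => (D.resField_zsmul_le G.η₀ n).trans ?_ hz
    rw [G.resField_η₀]
    exact G.range_none_subset_full
  have hrkn : TR.rk K (G.C ∪ Set.range σn) = (g * g + g : ℕ) :=
    le_antisymm (G.rk_le_of_subset_full (Set.union_subset G.C_subset_full hnfull))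
      (hres ▸ hCres)
  refine ⟨hrkn, ?_⟩
  obtain ⟨Φ, hΦC, hΦη⟩ := G.exists_transport hrkn
  obtain ⟨Pη, hPη⟩ := G.exists_point_η
  let y' : Fin g → G.full := fun i => ⟨G.w x 1 i, G.w_mem_full x 1 i⟩
  let C' : Set G.full := Subtype.val ⁻¹' G.C
  have hC'val : G.full.val '' C' = G.C := by
    exact Set.image_preimage_eq_of_subset fun z hz => ⟨⟨z, G.C_subset_full hz⟩, rfl⟩
  have hC'Φ : Φ '' C' = G.C := by
    exact (Set.image_congr fun z (hz : z ∈ C') => hΦC z hz).trans hC'val
  have hy' : ∀ i, Φ (y' i) = G.w x (fun _ => n) i := by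
    intro i
    obtain ⟨Pc, hPc⟩ := G.exists_point_c i
    have h1 : y' i = D.val (Pc + Pη) (x i) := by
      refine Subtype.ext ?_
      show G.w x 1 i = G.full.val (D.val (Pc + Pη) (x i))
      rw [← D.val_map, map_add, hPc, hPη, GenSys.w, Pi.one_apply, one_smul]
    rw [h1, ← D.val_map, map_add, G.map_transport_c hΦC hPc, G.map_transport_η hΦη hPη,
      D.ofHom_genHom]
    rfl
  set X' : IntermediateField K G.full := adjoin K (C' ∪ Set.range y') with hX'
  have hX1 : X'.map G.full.val = G.tupleField x 1 := by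
    rw [hX', adjoin_map, Set.image_union, hC'val, ← Set.range_comp]
    rfl
  have hX2 : X'.map Φ = G.tupleField x fun _ => n := by
    rw [hX', adjoin_map, Set.image_union, hC'Φ, ← Set.range_comp,
      show Φ ∘ y' = G.w x (fun _ => n) from funext hy']
    rfl
  have htop : (⊤ : IntermediateField K G.full).map Φ = adjoin K (G.C ∪ Set.range σn) := by
    let S' : Set G.full := Set.range fun f =>
      (⟨G.σ none f, G.range_none_subset_full ⟨f, rfl⟩⟩ : G.full)
    have h' : adjoin K (C' ∪ S') = ⊤ := by
      refine IntermediateField.lift_injective G.full ?_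
      rw [lift_adjoin, lift_top, Set.image_union, show Subtype.val '' C' = G.C from hC'val,
        ← Set.range_comp]
      rfl
    rw [← h', adjoin_map, Set.image_union, hC'Φ, ← Set.range_comp,
      show Φ ∘ (fun f => (⟨G.σ none f, G.range_none_subset_full ⟨f, rfl⟩⟩ : G.full)) = σn from
        funext hΦη]
  have hd1 : relfinrank (G.tupleField x 1) G.full =
      relfinrank (G.tupleField x fun _ => n) (adjoin K (G.C ∪ Set.range σn)) := by
    rw [← hX2, ← htop, relfinrank_map_map, ← hX1,
      ← relfinrank_map_map X' ⊤ G.full.val, ← AlgHom.fieldRange_eq_map, fieldRange_val]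
  have hBfull : adjoin K (G.C ∪ Set.range σn) ≤ G.full :=
    adjoin_le_iff.mpr (Set.union_subset G.C_subset_full hnfull)
  have hTB : (G.tupleField x fun _ => n) ≤ adjoin K (G.C ∪ Set.range σn) := by
    refine adjoin_le_iff.mpr (Set.union_subset (Set.subset_union_left.trans (subset_adjoin K _)) ?_)
    rintro _ ⟨i, rfl⟩
    have h := hwB i
    rwa [hB, ← adjoin_self K (D.resField (n • G.η₀)), hres, ← adjoin_union] at h
  have hmul := relfinrank_mul_relfinrank hTB hBfull
  rw [hdeg, ← hd1, mul_comm] at hmul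
  refine Nat.eq_of_mul_eq_mul_right ?_ hmul
  refine G.relfinrank_pos (G.tupleField_le_full x 1)
    (Set.subset_union_left.trans (subset_adjoin K _)) ?_
  rw [tupleField, TR.rk_adjoin, G.rk_C_union_range_w_one x hxi]

end FLTAgent.AbVarTors.GenSys
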