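import Mathlib
import Fermat.Agent.AbVarTors.Fields
import Fermat.Agent.Torsion.AutLemma

/-!
# Torsion points and the degree of multiplication

`AVData.natCard_torsion_of_degree`: if the function field has degree `n ^ (2 * g)` over its image
under multiplication by `n`, with `n` invertible in `K`, there are `n ^ (2 * g)` torsion points.
The extension is separable (`finSepDegree_eq_finrank_of_degree`), its embeddings in an algebraic
closure are in bijection with the torsion points there (`AVData.natCard_fibre`), and these are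
finitely many, hence defined over `K`.
-/

set_option autoImplicit false
set_option linter.style.haveILetI false
set_option linter.unusedSectionVars false

universe u

noncomputable section

open IntermediateField

namespace FLTAgent.AbVarTors

/-- A finite extension of degree prime to the characteristic is separable. -/
theorem finSepDegree_eq_finrank_of_degree {F₀ F : Type u} [Field F₀] [Field F] [Algebra F₀ F]
    [FiniteDimensional F₀ F] {n m : ℕ} (hn : (n : F₀) ≠ 0) (hdeg : Module.finrank F₀ F = n ^ m) :
    Field.finSepDegree F₀ F = Module.finrank F₀ F := by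
  obtain ⟨q, hq⟩ := ExpChar.exists F₀
  obtain ⟨s, hs⟩ := IsPurelyInseparable.finrank_eq_pow (separableClosure F₀ F) F q
  have hmul := Field.finSepDegree_mul_finInsepDegree F₀ F
  rw [Field.finInsepDegree, hs] at hmul
  suffices h : q ^ s = 1 by rw [h, mul_one] at hmul; exact hmul
  cases hq with
  | zero => exact one_pow s
  | prime hp =>
    rcases Nat.eq_zero_or_pos s with rfl | hs0
    · exact pow_zero q
    refine absurd ?_ hn
    have hdvd : q ∣ n ^ m := by
      rw [← hdeg, ← hmul]
      exact dvd_mul_of_dvd_right (dvd_pow_self q hs0.ne') _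
    exact (CharP.cast_eq_zero_iff F₀ q n).mpr (hp.dvd_of_dvd_pow hdvd)

namespace AVData

variable {K : Type u} [Field K] {g : ℕ} (D : AVData K g)

theorem trdeg_resField_map_η {E : Type u} [Field E] [Algebra K E] (P : D.Pt E) (h : D.loc P = ⊤) :
    Algebra.trdeg K (D.resField P) = g := by
  rw [D.resField_eq_fieldRange P h, ← D.trdeg_eq]
  exact (AlgEquiv.ofInjectiveField (D.genHom P h)).trdeg_eq.symm

/-- A multiple is generic only for generic points. -/
theorem loc_eq_top_of_zsmul {E : Type u} [Field E] [Algebra K E] (Q : D.Pt E) (n : ℤ)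
    (h : D.loc (n • Q) = ⊤) : D.loc Q = ⊤ :=
  D.loc_eq_top_of_trdeg Q ((D.trdeg_resField_map_η _ h).ge.trans
    (trdeg_le_of_injective (inclusion (D.resField_zsmul_le Q n)) (inclusion_injective _)))

section Kernel

variable [IsAlgClosed K] (n : ℕ) (hn : (n : K) ≠ 0) (h : D.loc (n • D.η) = ⊤)

/-- The points over the generic point are the embeddings of the function field. -/
theorem natCard_fibre :
    Nat.card (D.F →ₐ[(D.genHom (n • D.η) h).fieldRange] AlgebraicClosure D.F) =
      Nat.card {P : D.Pt (AlgebraicClosure D.F) // n • P = 0} := by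
  set σn := D.genHom (n • D.η) h with hσn
  set Ω := AlgebraicClosure D.F
  let ι : D.F →ₐ[K] Ω := IsScalarTower.toAlgHom K D.F Ω
  have hval : ∀ f, σn f = D.val (n • D.η) f := D.genHom_apply _ h
  let G : (D.F →ₐ[σn.fieldRange] Ω) → {P : D.Pt Ω // n • P = 0} := fun τ =>
    ⟨D.map (τ.restrictScalars K) D.η - D.map ι D.η, by
      rw [smul_sub, sub_eq_zero, ← map_nsmul, ← map_nsmul]
      refine D.ext_val (by rw [D.loc_map, D.loc_map]) fun f _ => ?_
      rw [D.val_map, D.val_map, ← hval]
      exact τ.commutes (⟨σn f, f, rfl⟩ : σn.fieldRange)⟩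
  refine Nat.card_eq_of_bijective G ⟨fun τ τ' hτ => ?_, fun P => ?_⟩
  · refine AlgHom.ext fun f => ?_
    have h1 := sub_left_inj.mp (congrArg Subtype.val hτ)
    have h2 := congrArg (D.val · f) h1
    rw [D.val_map, D.val_map, D.val_η] at h2
    exact h2
  · obtain ⟨P, hP⟩ := P
    set Q := P + D.map ι D.η with hQ
    have hnQ : n • Q = D.map ι (n • D.η) := by
      rw [hQ, smul_add, hP, zero_add, map_nsmul]
    have hQtop : D.loc Q = ⊤ := D.loc_eq_top_of_zsmul Q (n : ℤ) (by
      rw [natCast_zsmul, hnQ, D.loc_map, h])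
    let τ₀ := D.genHom Q hQtop
    have hτ₀ : ∀ f, τ₀ (σn f) = ι (σn f) := by
      intro f
      have h1 : D.map τ₀ (n • D.η) = D.map ι (n • D.η) := by
        rw [map_nsmul]
        exact (congrArg (n • ·) (D.ofHom_genHom Q hQtop)).trans hnQ
      have h2 := congrArg (D.val · f) h1
      rwa [D.val_map, D.val_map, ← hval] at h2
    let τ : D.F →ₐ[σn.fieldRange] Ω :=
      { τ₀.toRingHom with
        commutes' := fun a => by
          obtain ⟨a, f, rfl⟩ := a
          exact hτ₀ f }
    refine ⟨τ, Subtype.ext ?_⟩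
    show D.map (τ.restrictScalars K) D.η - D.map ι D.η = P
    rw [show τ.restrictScalars K = τ₀ from AlgHom.ext fun _ => rfl,
      show D.map τ₀ D.η = Q from D.ofHom_genHom Q hQtop, hQ, add_sub_cancel_right]

include hn in
/-- The number of torsion points is the degree of multiplication. -/
theorem natCard_torsion_of_degree
    (hdeg : Module.finrank (D.genHom (n • D.η) h).fieldRange D.F = n ^ (2 * g)) :
    Nat.card {P : D.Pt K // n • P = 0} = n ^ (2 * g) := by
  set F₀ := (D.genHom (n • D.η) h).fieldRange
  have hn0 : n ≠ 0 := fun h0 => hn (by rw [h0, Nat.cast_zero])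
  haveI : FiniteDimensional F₀ D.F :=
    Module.finite_of_finrank_pos (by rw [hdeg]; positivity)
  have hn' : (n : F₀) ≠ 0 := by
    rw [← map_natCast (algebraMap K F₀) n]
    exact (map_ne_zero _).mpr hn
  set Ω := AlgebraicClosure D.F
  have hcard : Nat.card {P : D.Pt Ω // n • P = 0} = n ^ (2 * g) := by
    rw [← D.natCard_fibre n h, ← Field.finSepDegree_eq_of_isAlgClosed F₀ D.F Ω,
      finSepDegree_eq_finrank_of_degree hn' hdeg, hdeg]
  haveI : Finite {P : D.Pt Ω // n • P = 0} :=
    Nat.finite_of_card_ne_zero (by rw [hcard]; positivity)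
  rw [← hcard]
  let ι : K →ₐ[K] Ω := Algebra.ofId K Ω
  let G : {P : D.Pt K // n • P = 0} → {P : D.Pt Ω // n • P = 0} := fun P =>
    ⟨D.map ι P.1, by rw [← map_nsmul, P.2, map_zero]⟩
  refine Nat.card_eq_of_bijective G ⟨fun P P' hP => Subtype.ext
    (D.map_injective ι (congrArg Subtype.val hP)), fun P => ?_⟩
  obtain ⟨P, hP⟩ := P
  have hrange : Set.range (D.ev P) ⊆ Set.range ι := by
    rw [D.range_ev_subset_iff]
    intro f _
    by_contra hf
    haveI : Infinite K := inferInstance
    have hτ : ∀ c : K, ∃ τ : Ω →ₐ[K] Ω, τ (D.val P f) = D.val P f + algebraMap K Ω c := by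
      intro c
      obtain ⟨τ, hfix, hτ⟩ := Torsion.exists_aut_translate (algebraMap K Ω) (a := D.val P f)
        (fun ⟨b, hb⟩ => hf ⟨b, hb⟩) c
      exact ⟨{ τ.toRingHom with commutes' := hfix }, hτ⟩
    choose τ hτ' using hτ
    let J : K → {Q : D.Pt Ω // n • Q = 0} := fun c =>
      ⟨D.map (τ c) P, by rw [← map_nsmul, hP, map_zero]⟩
    have hJ : Function.Injective J := fun c c' hcc => by
      have h1 := congrArg (fun Q : {Q : D.Pt Ω // n • Q = 0} => D.val Q.1 f) hcc
      simp only [J, D.val_map, hτ'] at h1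
      exact (algebraMap K Ω).injective (add_left_cancel h1)
    haveI := Infinite.of_injective J hJ
    exact not_finite {Q : D.Pt Ω // n • Q = 0}
  obtain ⟨P₀, hP₀⟩ := D.exists_descend ι P hrange
  refine ⟨⟨P₀, D.map_injective ι ?_⟩, Subtype.ext hP₀⟩
  rw [map_nsmul, hP₀, hP, map_zero]

end Kernel

end AVData

end FLTAgent.AbVarTors
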